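import Mathlib

/-!
# S51: shared definitions for the descent on `y² = x (x - 1) (x - 81)`
-/

set_option autoImplicit false

namespace Fermat.Agent.S51

/-- Output of the classification step for a rational point `(x, y)`, `y ≠ 0`, of
`y² = x (x - 1) (x - 81)`: `x = u² / e²` in lowest terms, and `x - 1`, `x - 81` are `δ` times
squares with `δ ∈ {1, -1, 5, -5}`. -/
def Classified (x : ℚ) : Prop :=
  ∃ u e v w δ : ℤ, 0 < u ∧ 0 < e ∧ 0 < v ∧ 0 < w ∧ Int.gcd u e = 1 ∧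
    x = (u : ℚ) ^ 2 / (e : ℚ) ^ 2 ∧ (δ = 1 ∨ δ = -1 ∨ δ = 5 ∨ δ = -5) ∧
    u ^ 2 - e ^ 2 = δ * v ^ 2 ∧ u ^ 2 - 81 * e ^ 2 = δ * w ^ 2

end Fermat.Agent.S51
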