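import Mathlib
import Fermat.Agent.S51.DescentDefs

/-!
# S51, descent step 1: classification of rational points of `y² = x (x - 1) (x - 81)`

Main result: `classified_of_point`.
-/

set_option autoImplicit false

namespace Fermat.Agent.S51

/-! ### Elementary congruence facts -/

theorem sq_emod_eight_of_odd (u : ℤ) (h : u % 2 = 1) : u ^ 2 % 8 = 1 := by
  have h8 : u % 8 = 1 ∨ u % 8 = 3 ∨ u % 8 = 5 ∨ u % 8 = 7 := by omega
  rcases h8 with h | h | h | h <;> simp [pow_two, Int.mul_emod, h]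

theorem sq_emod_four (b : ℤ) : b ^ 2 % 4 = 0 ∨ b ^ 2 % 4 = 1 := by
  have h4 : b % 4 = 0 ∨ b % 4 = 1 ∨ b % 4 = 2 ∨ b % 4 = 3 := by omega
  rcases h4 with h | h | h | h <;> simp [pow_two, Int.mul_emod, h]

theorem sq_emod_two (b : ℤ) : b ^ 2 % 2 = b % 2 := by
  have h2 : b % 2 = 0 ∨ b % 2 = 1 := by omega
  rcases h2 with h | h <;> simp [pow_two, Int.mul_emod, h]

/-- If `u, e` are coprime and `u² - e²` is even then both are odd. -/
theorem odd_of_even_sub_sq (u e : ℤ) (hco : IsCoprime u e) (h : (u ^ 2 - e ^ 2) % 2 = 0) :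
    u % 2 = 1 ∧ e % 2 = 1 := by
  have hu := sq_emod_two u
  have he := sq_emod_two e
  have hne : ¬ (u % 2 = 0 ∧ e % 2 = 0) := by
    rintro ⟨h1, h2⟩
    have h2u : (2 : ℤ) ∣ u := Int.dvd_of_emod_eq_zero h1
    have h2e : (2 : ℤ) ∣ e := Int.dvd_of_emod_eq_zero h2
    have : IsUnit (2 : ℤ) := hco.isUnit_of_dvd' h2u h2e
    rw [Int.isUnit_iff] at this
    omega
  omega

/-- Packaging of the good cases `g = s t²`. -/
theorem delta_finish (B C ε s t b c : ℤ) (hε : ε = 1 ∨ ε = -1) (hs : s = 1 ∨ s = 5) (ht : 0 < t)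
    (hb : b ≠ 0) (hc : c ≠ 0) (hB : B = ε * (s * t ^ 2) * b ^ 2)
    (hC : C = ε * (s * t ^ 2) * c ^ 2) :
    ∃ v w δ : ℤ, 0 < v ∧ 0 < w ∧ (δ = 1 ∨ δ = -1 ∨ δ = 5 ∨ δ = -5) ∧
      B = δ * v ^ 2 ∧ C = δ * w ^ 2 := by
  refine ⟨t * |b|, t * |c|, ε * s, mul_pos ht (abs_pos.mpr hb), mul_pos ht (abs_pos.mpr hc), ?_,
    ?_, ?_⟩
  · rcases hε with rfl | rfl <;> rcases hs with rfl | rfl <;> simp
  · rw [hB, mul_pow, sq_abs]; ring
  · rw [hC, mul_pow, sq_abs]; ring

/-- **Core of the classification**: if `(u² - e²)(u² - 81 e²)` is a nonzero square with `u, e`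
coprime, then both factors are `δ` times a square with `δ ∈ {±1, ±5}`. -/
theorem core_delta (u e N : ℤ) (hco : IsCoprime u e) (hN : N ≠ 0)
    (h : (u ^ 2 - e ^ 2) * (u ^ 2 - 81 * e ^ 2) = N ^ 2) :
    ∃ v w δ : ℤ, 0 < v ∧ 0 < w ∧ (δ = 1 ∨ δ = -1 ∨ δ = 5 ∨ δ = -5) ∧
      u ^ 2 - e ^ 2 = δ * v ^ 2 ∧ u ^ 2 - 81 * e ^ 2 = δ * w ^ 2 := by
  set B : ℤ := u ^ 2 - e ^ 2 with hBdef
  set C : ℤ := u ^ 2 - 81 * e ^ 2 with hCdef
  have hB0 : B ≠ 0 := by
    rintro h0; rw [h0, zero_mul] at h; exact hN ((pow_eq_zero_iff (two_ne_zero)).mp h.symm)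
  have hC0 : C ≠ 0 := by
    rintro h0; rw [h0, mul_zero] at h; exact hN ((pow_eq_zero_iff (two_ne_zero)).mp h.symm)
  have hgpos : 0 < Int.gcd B C := Int.gcd_pos_of_ne_zero_left _ hB0
  obtain ⟨B', C', hcop', hB', hC'⟩ := Int.exists_gcd_one hgpos
  set g : ℕ := Int.gcd B C with hg
  have hgB : (g : ℤ) ∣ B := Int.gcd_dvd_left ..
  have hgC : (g : ℤ) ∣ C := Int.gcd_dvd_right ..
  -- `g ∣ 80`
  have hBe : IsCoprime B e := by
    have : IsCoprime (u ^ 2) e := hco.pow_left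
    have h2 : B = u ^ 2 + e * (-e) := by rw [hBdef]; ring
    rw [h2]
    exact this.add_mul_left_left (-e)
  have hge : IsCoprime (g : ℤ) e := hBe.of_isCoprime_of_dvd_left hgB
  have hg80 : (g : ℤ) ∣ 80 := by
    have h1 : (g : ℤ) ∣ 80 * e ^ 2 := by
      have : B - C = 80 * e ^ 2 := by rw [hBdef, hCdef]; ring
      rw [← this]; exact dvd_sub hgB hgC
    exact (hge.pow_right (n := 2)).dvd_of_dvd_mul_right h1
  have hg80' : g ∣ 80 := by exact_mod_cast hg80
  -- `g ∣ N`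
  have hgN : (g : ℤ) ∣ N := by
    have : (g : ℤ) ^ 2 ∣ N ^ 2 := by
      rw [← h, pow_two]; exact mul_dvd_mul hgB hgC
    exact (Int.pow_dvd_pow_iff two_ne_zero).mp this
  obtain ⟨N', hN'⟩ := hgN
  have hg0 : (g : ℤ) ≠ 0 := by exact_mod_cast hgpos.ne'
  have hN'0 : N' ≠ 0 := by rintro rfl; exact hN (by rw [hN', mul_zero])
  have hprod : B' * C' = N' ^ 2 := by
    have h1 : (g : ℤ) ^ 2 * (B' * C') = (g : ℤ) ^ 2 * N' ^ 2 := by
      calc (g : ℤ) ^ 2 * (B' * C') = (B' * g) * (C' * g) := by ring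
        _ = B * C := by rw [← hB', ← hC']
        _ = N ^ 2 := h
        _ = (g : ℤ) ^ 2 * N' ^ 2 := by rw [hN']; ring
    exact mul_left_cancel₀ (pow_ne_zero 2 hg0) h1
  obtain ⟨b, hb⟩ := Int.sq_of_gcd_eq_one hcop' hprod
  obtain ⟨c, hc⟩ := Int.sq_of_gcd_eq_one (by rwa [Int.gcd_comm]) (by rwa [mul_comm] at hprod)
  -- common sign
  have hsign : ∃ ε : ℤ, (ε = 1 ∨ ε = -1) ∧ B' = ε * b ^ 2 ∧ C' = ε * c ^ 2 := by
    rcases hb with hb | hb <;> rcases hc with hc | hc
    · exact ⟨1, Or.inl rfl, by rw [hb]; ring, by rw [hc]; ring⟩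
    · exfalso
      rw [hb, hc] at hprod
      have : N' ^ 2 + (b * c) ^ 2 = 0 := by rw [← hprod]; ring
      have h3 : N' ^ 2 = 0 := by nlinarith [sq_nonneg N', sq_nonneg (b * c)]
      exact hN'0 (pow_eq_zero_iff two_ne_zero |>.mp h3)
    · exfalso
      rw [hb, hc] at hprod
      have : N' ^ 2 + (b * c) ^ 2 = 0 := by rw [← hprod]; ring
      have h3 : N' ^ 2 = 0 := by nlinarith [sq_nonneg N', sq_nonneg (b * c)]
      exact hN'0 (pow_eq_zero_iff two_ne_zero |>.mp h3)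
    · exact ⟨-1, Or.inr rfl, by rw [hb]; ring, by rw [hc]; ring⟩
  obtain ⟨ε, hε, hBε, hCε⟩ := hsign
  have hb0 : b ≠ 0 := by
    rintro rfl
    apply hB0
    rw [hB', hBε]; ring
  have hc0 : c ≠ 0 := by
    rintro rfl
    apply hC0
    rw [hC', hCε]; ring
  have hBg : B = ε * (g : ℤ) * b ^ 2 := by rw [hB', hBε]; ring
  have hCg : C = ε * (g : ℤ) * c ^ 2 := by rw [hC', hCε]; ring
  -- the key relation `ε g (b² - c²) = 80 e²`
  have hrel : ε * (g : ℤ) * (b ^ 2 - c ^ 2) = 80 * e ^ 2 := by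
    have : B - C = 80 * e ^ 2 := by rw [hBdef, hCdef]; ring
    rw [← this, hBg, hCg]; ring
  -- case analysis on `g ∣ 80`
  have hgmem : g ∈ Nat.divisors 80 := Nat.mem_divisors.mpr ⟨hg80', by norm_num⟩
  have hdiv : Nat.divisors 80 = {1, 2, 4, 5, 8, 10, 16, 20, 40, 80} := by decide
  rw [hdiv] at hgmem
  simp only [Finset.mem_insert, Finset.mem_singleton] at hgmem
  -- parity facts when `g` is even
  have hodd : (2 : ℤ) ∣ (g : ℤ) → u % 2 = 1 ∧ e % 2 = 1 := by
    intro h2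
    apply odd_of_even_sub_sq u e hco
    exact Int.emod_eq_zero_of_dvd (h2.trans hgB)
  have h8 : (2 : ℤ) ∣ (g : ℤ) → (8 : ℤ) ∣ (g : ℤ) := by
    intro h2
    obtain ⟨hu2, he2⟩ := hodd h2
    have hu8 := sq_emod_eight_of_odd u hu2
    have he8 := sq_emod_eight_of_odd e he2
    have hB8 : (8 : ℤ) ∣ B := by
      apply Int.dvd_of_emod_eq_zero
      rw [hBdef]; omega
    have hC8 : (8 : ℤ) ∣ C := by
      apply Int.dvd_of_emod_eq_zero
      rw [hCdef]; omega
    exact Int.dvd_coe_gcd hB8 hC8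
  rcases hgmem with hg1 | hg1 | hg1 | hg1 | hg1 | hg1 | hg1 | hg1 | hg1 | hg1
  · -- g = 1
    exact delta_finish B C ε 1 1 b c hε (Or.inl rfl) one_pos hb0 hc0
      (by rw [hBg, hg1]; ring) (by rw [hCg, hg1]; ring)
  · -- g = 2
    exfalso
    have := h8 (by rw [hg1]; norm_num)
    rw [hg1] at this; norm_num at this
  · -- g = 4
    exact delta_finish B C ε 1 2 b c hε (Or.inl rfl) two_pos hb0 hc0
      (by rw [hBg, hg1]; push_cast; ring) (by rw [hCg, hg1]; push_cast; ring)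
  · -- g = 5
    exact delta_finish B C ε 5 1 b c hε (Or.inr rfl) one_pos hb0 hc0
      (by rw [hBg, hg1]; push_cast; ring) (by rw [hCg, hg1]; push_cast; ring)
  · -- g = 8
    exfalso
    obtain ⟨hu2, he2⟩ := hodd (by rw [hg1]; norm_num)
    have he8 := sq_emod_eight_of_odd e he2
    rw [hg1] at hrel
    have hb4 := sq_emod_four b
    have hc4 := sq_emod_four c
    rcases hε with rfl | rfl <;> push_cast at hrel <;> omega
  · -- g = 10
    exfalso
    have := h8 (by rw [hg1]; norm_num)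
    rw [hg1] at this; norm_num at this
  · -- g = 16
    exact delta_finish B C ε 1 4 b c hε (Or.inl rfl) (by norm_num) hb0 hc0
      (by rw [hBg, hg1]; push_cast; ring) (by rw [hCg, hg1]; push_cast; ring)
  · -- g = 20
    exact delta_finish B C ε 5 2 b c hε (Or.inr rfl) two_pos hb0 hc0
      (by rw [hBg, hg1]; push_cast; ring) (by rw [hCg, hg1]; push_cast; ring)
  · -- g = 40
    exfalso
    obtain ⟨hu2, he2⟩ := hodd (by rw [hg1]; norm_num)
    have he8 := sq_emod_eight_of_odd e he2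
    rw [hg1] at hrel
    have hb4 := sq_emod_four b
    have hc4 := sq_emod_four c
    rcases hε with rfl | rfl <;> push_cast at hrel <;> omega
  · -- g = 80
    exact delta_finish B C ε 5 4 b c hε (Or.inr rfl) (by norm_num) hb0 hc0
      (by rw [hBg, hg1]; push_cast; ring) (by rw [hCg, hg1]; push_cast; ring)

/-! ### The numerator is a square -/

theorem zmod3_sq_eq_neg_sq : ∀ x y : ZMod 3, x ^ 2 = -(y ^ 2) → y = 0 := by decide

/-- Mod `3` obstruction: `n² = a (3K - e²)(a - 3L)` with `3 ∤ a`, `3 ∤ e` is impossible. -/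
theorem mod_three_obstruction (a e n K L : ℤ) (h : n ^ 2 = a * (3 * K - e ^ 2) * (a - 3 * L))
    (ha : ¬ (3 : ℤ) ∣ a) (he : ¬ (3 : ℤ) ∣ e) : False := by
  have h1 := congrArg (Int.cast : ℤ → ZMod 3) h
  push_cast at h1
  have h3 : (3 : ZMod 3) = 0 := by decide
  rw [h3, zero_mul, zero_mul, zero_sub, sub_zero] at h1
  have h2 : ((n : ZMod 3)) ^ 2 = -(((a : ZMod 3) * (e : ZMod 3)) ^ 2) := by
    rw [h1]; ring
  have h4 := zmod3_sq_eq_neg_sq _ _ h2
  have h5 : ((a * e : ℤ) : ZMod 3) = 0 := by push_cast; exact h4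
  rw [ZMod.intCast_zmod_eq_zero_iff_dvd] at h5
  have hp : Prime (3 : ℤ) := Int.prime_three
  rcases hp.dvd_or_dvd (by exact_mod_cast h5) with h6 | h6
  · exact ha h6
  · exact he h6

/-- A positive integer coprime to `b` with `m * b` a square is a square. -/
theorem pos_sq_of_isCoprime_mul (m b n : ℤ) (hm : 0 < m) (hco : IsCoprime m b)
    (h : m * b = n ^ 2) : ∃ u : ℤ, 0 < u ∧ m = u ^ 2 := by
  obtain ⟨a, ha | ha⟩ := Int.sq_of_isCoprime hco h
  · refine ⟨|a|, abs_pos.mpr ?_, by rw [sq_abs, ha]⟩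
    rintro rfl
    rw [ha] at hm; simp at hm
  · exfalso
    have : 0 ≤ a ^ 2 := sq_nonneg a
    omega

/-- **The numerator is a square.** -/
theorem num_sq (m e n : ℤ) (hco : IsCoprime m e) (hn : n ≠ 0)
    (h : n ^ 2 = m * (m - e ^ 2) * (m - 81 * e ^ 2)) : ∃ u : ℤ, 0 < u ∧ m = u ^ 2 := by
  have he2 : 0 ≤ e ^ 2 := sq_nonneg e
  have hn2 : 0 < n ^ 2 := by positivity
  -- positivity of `m`
  have hm : 0 < m := by
    by_contra hneg
    rw [not_lt] at hneg
    rcases hneg.lt_or_eq with hlt | heq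
    · have h1 : m - e ^ 2 < 0 := by linarith
      have h2 : m - 81 * e ^ 2 < 0 := by linarith
      have h3 : 0 < m * (m - e ^ 2) := mul_pos_of_neg_of_neg hlt h1
      have h4 : m * (m - e ^ 2) * (m - 81 * e ^ 2) < 0 := mul_neg_of_pos_of_neg h3 h2
      linarith
    · rw [heq] at h; simp at h; exact hn h
  have hcoB : IsCoprime m (m - e ^ 2) := by
    have h1 : IsCoprime m (e ^ 2) := hco.pow_right
    have h2 : m - e ^ 2 = -(e ^ 2) + m * 1 := by ring
    rw [h2]
    exact (h1.neg_right).add_mul_left_right 1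
  by_cases h3 : (3 : ℤ) ∣ m
  · -- `3 ∣ m`, hence `3 ∤ e`
    have he3 : ¬ (3 : ℤ) ∣ e := by
      intro h3e
      have := hco.isUnit_of_dvd' h3 h3e
      rw [Int.isUnit_iff] at this
      omega
    obtain ⟨a, rfl⟩ := h3
    by_cases ha3 : (3 : ℤ) ∣ a
    · obtain ⟨b, rfl⟩ := ha3
      by_cases hb3 : (3 : ℤ) ∣ b
      · obtain ⟨c, rfl⟩ := hb3
        by_cases hc3 : (3 : ℤ) ∣ c
        · -- `81 ∣ m`
          obtain ⟨d, rfl⟩ := hc3
          have h81 : (81 : ℤ) ^ 2 ∣ n ^ 2 := by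
            rw [h]
            exact ⟨d * (81 * d - e ^ 2) * (d - e ^ 2), by ring⟩
          obtain ⟨n', rfl⟩ := (Int.pow_dvd_pow_iff two_ne_zero).mp h81
          have h' : d * ((81 * d - e ^ 2) * (d - e ^ 2)) = n' ^ 2 := by
            have : (81 : ℤ) ^ 2 * (d * ((81 * d - e ^ 2) * (d - e ^ 2))) = (81 : ℤ) ^ 2 * n' ^ 2 := by
              have := h; ring_nf at this ⊢; linarith
            exact mul_left_cancel₀ (by norm_num) this
          have hd : 0 < d := by linarith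
          have hde : IsCoprime d e := by
            have h81d : IsCoprime (81 * d) e := by
              have : 3 * (3 * (3 * (3 * d))) = 81 * d := by ring
              rwa [this] at hco
            exact h81d.of_mul_left_right
          have hde2 : IsCoprime d (e ^ 2) := hde.pow_right
          have hc1 : IsCoprime d (81 * d - e ^ 2) := by
            have h2 : 81 * d - e ^ 2 = -(e ^ 2) + d * 81 := by ring
            rw [h2]
            exact (hde2.neg_right).add_mul_left_right 81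
          have hc2 : IsCoprime d (d - e ^ 2) := by
            have h2 : d - e ^ 2 = -(e ^ 2) + d * 1 := by ring
            rw [h2]
            exact (hde2.neg_right).add_mul_left_right 1
          obtain ⟨u, hu, hdu⟩ := pos_sq_of_isCoprime_mul d _ n' hd (hc1.mul_right hc2) h'
          exact ⟨9 * u, by linarith, by rw [hdu]; ring⟩
        · -- `m = 27 c`, `3 ∤ c`
          exfalso
          have h27 : (27 : ℤ) ^ 2 ∣ n ^ 2 := by
            rw [h]
            exact ⟨c * (27 * c - e ^ 2) * (c - 3 * e ^ 2), by ring⟩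
          obtain ⟨n', rfl⟩ := (Int.pow_dvd_pow_iff two_ne_zero).mp h27
          have h' : n' ^ 2 = c * (3 * (9 * c) - e ^ 2) * (c - 3 * e ^ 2) := by
            have : (27 : ℤ) ^ 2 * n' ^ 2 =
                (27 : ℤ) ^ 2 * (c * (3 * (9 * c) - e ^ 2) * (c - 3 * e ^ 2)) := by
              have := h; ring_nf at this ⊢; linarith
            exact mul_left_cancel₀ (by norm_num) this
          exact mod_three_obstruction c e n' (9 * c) (e ^ 2) h' hc3 he3
      · -- `m = 9 b`, `3 ∤ b`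
        exfalso
        have h9 : (9 : ℤ) ^ 2 ∣ n ^ 2 := by
          rw [h]
          exact ⟨b * (9 * b - e ^ 2) * (b - 9 * e ^ 2), by ring⟩
        obtain ⟨n', rfl⟩ := (Int.pow_dvd_pow_iff two_ne_zero).mp h9
        have h' : n' ^ 2 = b * (3 * (3 * b) - e ^ 2) * (b - 3 * (3 * e ^ 2)) := by
          have : (9 : ℤ) ^ 2 * n' ^ 2 =
              (9 : ℤ) ^ 2 * (b * (3 * (3 * b) - e ^ 2) * (b - 3 * (3 * e ^ 2))) := by
            have := h; ring_nf at this ⊢; linarith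
          exact mul_left_cancel₀ (by norm_num) this
        exact mod_three_obstruction b e n' (3 * b) (3 * e ^ 2) h' hb3 he3
    · -- `m = 3 a`, `3 ∤ a`
      exfalso
      have h3' : (3 : ℤ) ^ 2 ∣ n ^ 2 := by
        rw [h]
        exact ⟨a * (3 * a - e ^ 2) * (a - 27 * e ^ 2), by ring⟩
      obtain ⟨n', rfl⟩ := (Int.pow_dvd_pow_iff two_ne_zero).mp h3'
      have h' : n' ^ 2 = a * (3 * a - e ^ 2) * (a - 3 * (9 * e ^ 2)) := by
        have : (3 : ℤ) ^ 2 * n' ^ 2 =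
            (3 : ℤ) ^ 2 * (a * (3 * a - e ^ 2) * (a - 3 * (9 * e ^ 2))) := by
          have := h; ring_nf at this ⊢; linarith
        exact mul_left_cancel₀ (by norm_num) this
      exact mod_three_obstruction a e n' a (9 * e ^ 2) h' ha3 he3
  · -- `3 ∤ m`
    have hm3 : IsCoprime m 3 := by
      have hp : Prime (3 : ℤ) := Int.prime_three
      exact (hp.coprime_iff_not_dvd.mpr h3).symm
    have hm81 : IsCoprime m 81 := by
      have : (81 : ℤ) = 3 ^ 4 := by norm_num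
      rw [this]; exact hm3.pow_right
    have hcoC : IsCoprime m (m - 81 * e ^ 2) := by
      have h1 : IsCoprime m (81 * e ^ 2) := hm81.mul_right hco.pow_right
      have h2 : m - 81 * e ^ 2 = -(81 * e ^ 2) + m * 1 := by ring
      rw [h2]
      exact (h1.neg_right).add_mul_left_right 1
    exact pos_sq_of_isCoprime_mul m _ n hm (hcoB.mul_right hcoC) (by rw [h]; ring)

/-! ### From rational to integral points -/

theorem clear_denominators (m n : ℤ) (d k : ℕ) (hd : d ≠ 0) (hk : k ≠ 0)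
    (h : ((n : ℚ) / k) ^ 2 = ((m : ℚ) / d) * ((m : ℚ) / d - 1) * ((m : ℚ) / d - 81)) :
    n ^ 2 * (d : ℤ) ^ 3 = (k : ℤ) ^ 2 * (m * (m - d) * (m - 81 * d)) := by
  have hd' : (d : ℚ) ≠ 0 := by exact_mod_cast hd
  have hk' : (k : ℚ) ≠ 0 := by exact_mod_cast hk
  have h1 : (n : ℚ) ^ 2 * (d : ℚ) ^ 3 =
      (k : ℚ) ^ 2 * ((m : ℚ) * ((m : ℚ) - d) * ((m : ℚ) - 81 * d)) := by
    field_simp at h
    linear_combination h
  exact_mod_cast h1

/-- A rational point with `y ≠ 0` has the shape `x = m / e²`, `y = n / e³`. -/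
theorem exists_int_model (x y : ℚ) (h : y ^ 2 = x * (x - 1) * (x - 81)) (hy : y ≠ 0) :
    ∃ m e n : ℤ, 0 < e ∧ IsCoprime m e ∧ n ≠ 0 ∧ x = (m : ℚ) / (e : ℚ) ^ 2 ∧
      n ^ 2 = m * (m - e ^ 2) * (m - 81 * e ^ 2) := by
  have hEq := clear_denominators x.num y.num x.den y.den x.den_nz y.den_nz
    (by rw [Rat.num_div_den, Rat.num_div_den]; exact h)
  set m : ℤ := x.num with hm
  set n : ℤ := y.num with hn
  set D : ℤ := (x.den : ℤ) with hD
  set K : ℤ := (y.den : ℤ) with hK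
  have hDpos : 0 < D := by rw [hD]; exact_mod_cast x.den_pos
  have hKpos : 0 < K := by rw [hK]; exact_mod_cast y.den_pos
  have hmD : IsCoprime m D := by
    rw [Int.isCoprime_iff_gcd_eq_one]
    have := x.reduced
    simpa [Int.gcd, hm, hD] using this
  have hnK : IsCoprime n K := by
    rw [Int.isCoprime_iff_gcd_eq_one]
    have := y.reduced
    simpa [Int.gcd, hn, hK] using this
  have hn0 : n ≠ 0 := Rat.num_ne_zero.mpr hy
  set M : ℤ := m * (m - D) * (m - 81 * D) with hM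
  have hMD : IsCoprime M D := by
    have h1 : IsCoprime (m - D) D := by
      have : m - D = m + D * (-1) := by ring
      rw [this]; exact hmD.add_mul_left_left (-1)
    have h2 : IsCoprime (m - 81 * D) D := by
      have : m - 81 * D = m + D * (-81) := by ring
      rw [this]; exact hmD.add_mul_left_left (-81)
    exact (hmD.mul_left h1).mul_left h2
  -- `D³ = K²`
  have hD3K2 : D ^ 3 = K ^ 2 := by
    have h1 : D ^ 3 ∣ K ^ 2 := by
      have : D ^ 3 ∣ K ^ 2 * M := ⟨n ^ 2, by rw [← hEq]; ring⟩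
      exact (hMD.symm.pow_left (m := 3)).dvd_of_dvd_mul_right this
    have h2 : K ^ 2 ∣ D ^ 3 := by
      have : K ^ 2 ∣ n ^ 2 * D ^ 3 := ⟨M, hEq⟩
      exact ((hnK.symm.pow_left (m := 2)).pow_right (n := 2)).dvd_of_dvd_mul_left this
    exact Int.dvd_antisymm (by positivity) (by positivity) h1 h2
  -- `D ∣ K`
  have hDK : D ∣ K := by
    have : D ^ 2 ∣ K ^ 2 := by
      rw [← hD3K2]; exact ⟨D, by ring⟩
    exact (Int.pow_dvd_pow_iff two_ne_zero).mp this
  obtain ⟨E, hE⟩ := hDK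
  have hD0 : D ≠ 0 := hDpos.ne'
  have hDE : D = E ^ 2 := by
    have h1 : D ^ 2 * D = D ^ 2 * E ^ 2 := by
      calc D ^ 2 * D = D ^ 3 := by ring
        _ = K ^ 2 := hD3K2
        _ = D ^ 2 * E ^ 2 := by rw [hE]; ring
    exact mul_left_cancel₀ (pow_ne_zero 2 hD0) h1
  have hEpos : 0 < E := by
    by_contra hneg
    rw [not_lt] at hneg
    have : K ≤ 0 := by rw [hE]; exact mul_nonpos_of_nonneg_of_nonpos hDpos.le hneg
    linarith
  have hE0 : E ≠ 0 := hEpos.ne'
  have hKE : K = E ^ 3 := by rw [hE, hDE]; ring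
  refine ⟨m, E, n, hEpos, ?_, hn0, ?_, ?_⟩
  · rw [hDE] at hmD
    exact (IsCoprime.pow_right_iff two_pos).mp hmD
  · have hx : x = (x.num : ℚ) / (x.den : ℚ) := (Rat.num_div_den x).symm
    have hden : (x.den : ℚ) = (E : ℚ) ^ 2 := by
      have : ((x.den : ℤ) : ℚ) = ((E ^ 2 : ℤ) : ℚ) := by rw [← hD, hDE]
      push_cast at this
      exact this
    rw [← hden]; exact hx
  · have h1 : E ^ 6 * n ^ 2 = E ^ 6 * (m * (m - E ^ 2) * (m - 81 * E ^ 2)) := by
      have := hEq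
      rw [hM, hKE, hDE] at this
      linear_combination this
    exact mul_left_cancel₀ (pow_ne_zero 6 hE0) h1

/-- **Classification of rational points** of `y² = x (x - 1) (x - 81)` with `y ≠ 0`. -/
theorem classified_of_point (x y : ℚ) (h : y ^ 2 = x * (x - 1) * (x - 81)) (hy : y ≠ 0) :
    Classified x := by
  obtain ⟨m, e, n, he, hco, hn0, hx, hEq⟩ := exists_int_model x y h hy
  obtain ⟨u, hu, rfl⟩ := num_sq m e n hco hn0 hEq
  have hco' : IsCoprime u e := (IsCoprime.pow_left_iff two_pos).mp hco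
  have hun : u ∣ n := by
    have : u ^ 2 ∣ n ^ 2 := ⟨(u ^ 2 - e ^ 2) * (u ^ 2 - 81 * e ^ 2), by rw [hEq]; ring⟩
    exact (Int.pow_dvd_pow_iff two_ne_zero).mp this
  obtain ⟨N, rfl⟩ := hun
  have hu0 : u ≠ 0 := hu.ne'
  have hN0 : N ≠ 0 := by rintro rfl; exact hn0 (mul_zero u)
  have hprod : (u ^ 2 - e ^ 2) * (u ^ 2 - 81 * e ^ 2) = N ^ 2 := by
    have h1 : u ^ 2 * ((u ^ 2 - e ^ 2) * (u ^ 2 - 81 * e ^ 2)) = u ^ 2 * N ^ 2 := by
      linear_combination -hEq
    exact mul_left_cancel₀ (pow_ne_zero 2 hu0) h1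
  obtain ⟨v, w, δ, hv, hw, hδ, h1, h2⟩ := core_delta u e N hco' hN0 hprod
  refine ⟨u, e, v, w, δ, hu, he, hv, hw, Int.isCoprime_iff_gcd_eq_one.mp hco', ?_, hδ, h1, h2⟩
  rw [hx]; push_cast; ring

end Fermat.Agent.S51
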