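import Fermat.Agent.S51.Descent
import Fermat.Agent.S51.DescentClass

/-!
# S51 descent, unconditional statements

Combines `Descent.lean` (height descent, given the classification of Step 1) with
`DescentClass.lean` (the classification `classified_of_point`).
-/

namespace Fermat.Agent.S51

/-- Theorem L: the only rational points on `y² = x(x-1)(x-81)` are the 2-torsion points
(those with `y = 0`). -/
theorem theoremL (x y : ℚ) (h : y ^ 2 = x * (x - 1) * (x - 81)) : y = 0 :=
  theoremL_of_classified classified_of_point x y h

/-- Theorem E: the rational points on `Y² = X(X-16)(X+9)` have `Y = 0`, `X = 36` or `X = -4`. -/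
theorem theoremE (X Y : ℚ) (h : Y ^ 2 = X * (X - 16) * (X + 9)) : Y = 0 ∨ X = 36 ∨ X = -4 :=
  theoremE_of_L theoremL X Y h

end Fermat.Agent.S51
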