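import Mathlib

/-!
# S51: the duplication formula in the `x`-coordinate

For a Weierstrass curve `E` over a field `K` we define the scalar functions
`fTwo = Ψ₂Sq`, `psi3 = Ψ₃`, `phi2 = x·fTwo - psi3`, `prePsi4 = preΨ₄`, `Psi5`, `bigG` and prove:

* (D1) `two_smul_eq_zero_iff`: `2 • P = 0 ↔ fTwo (x P) = 0`;
* (D2) `xCoord_two_smul`: `x(2P) * fTwo (x P) = phi2 (x P)`;
* (D3) `Δ_eq_zero_of_fTwo_psi3`, `Δ_eq_zero_of_fTwo_phi2`;
* (D4) `xCoord_eq_iff`: same `x`-coordinate iff `P = ± Q`;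
* (D5) `dup_fTwo`, (D6) `bigG_eq`.
-/

set_option autoImplicit false

namespace Fermat.Agent.S51

open WeierstrassCurve

section Scalar

variable {K : Type*} [Field K] (E : WeierstrassCurve K)

/-- `Ψ₂Sq` as a function: `(2y + a₁x + a₃)² = fTwo x` on the curve. -/
def fTwo (x : K) : K := 4 * x ^ 3 + E.b₂ * x ^ 2 + 2 * E.b₄ * x + E.b₆

/-- The derivative of `fTwo`. -/
def fTwoD (x : K) : K := 12 * x ^ 2 + 2 * E.b₂ * x + 2 * E.b₄

/-- The `3`-division polynomial `Ψ₃` as a function. -/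
def psi3 (x : K) : K := 3 * x ^ 4 + E.b₂ * x ^ 3 + 3 * E.b₄ * x ^ 2 + 3 * E.b₆ * x + E.b₈

/-- The numerator of the duplication formula: `x(2P) * fTwo x = phi2 x`. -/
def phi2 (x : K) : K := x ^ 4 - E.b₄ * x ^ 2 - 2 * E.b₆ * x - E.b₈

/-- `preΨ₄` as a function. -/
def prePsi4 (x : K) : K :=
  2 * x ^ 6 + E.b₂ * x ^ 5 + 5 * E.b₄ * x ^ 4 + 10 * E.b₆ * x ^ 3 + 10 * E.b₈ * x ^ 2 +
    (E.b₂ * E.b₈ - E.b₄ * E.b₆) * x + (E.b₄ * E.b₈ - E.b₆ ^ 2)

/-- The `5`-division polynomial as a function. -/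
def Psi5 (x : K) : K := prePsi4 E x * fTwo E x ^ 2 - psi3 E x ^ 3

/-- `phi2 (x₂) - x * fTwo (x₂)` with `x₂ = phi2 x / fTwo x`, homogenised. -/
def bigG (x : K) : K :=
  phi2 E x ^ 4 - E.b₄ * phi2 E x ^ 2 * fTwo E x ^ 2 - 2 * E.b₆ * phi2 E x * fTwo E x ^ 3 -
    E.b₈ * fTwo E x ^ 4 -
    x * fTwo E x * (4 * phi2 E x ^ 3 + E.b₂ * phi2 E x ^ 2 * fTwo E x +
      2 * E.b₄ * phi2 E x * fTwo E x ^ 2 + E.b₆ * fTwo E x ^ 3)

theorem eval_Ψ₂Sq (x : K) : E.Ψ₂Sq.eval x = fTwo E x := by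
  simp [WeierstrassCurve.Ψ₂Sq, fTwo]

theorem eval_Ψ₃ (x : K) : E.Ψ₃.eval x = psi3 E x := by
  simp [WeierstrassCurve.Ψ₃, psi3]

theorem eval_preΨ₄ (x : K) : E.preΨ₄.eval x = prePsi4 E x := by
  simp [WeierstrassCurve.preΨ₄, prePsi4]

theorem phi2_eq (x : K) : phi2 E x = x * fTwo E x - psi3 E x := by
  simp only [phi2, fTwo, psi3]
  ring

/-- `16 Ψ₃ = 2 f f'' - f'²`. -/
theorem fTwoD_sq (x : K) :
    fTwoD E x ^ 2 = 2 * fTwo E x * (24 * x + 2 * E.b₂) - 16 * psi3 E x := by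
  simp only [fTwoD, fTwo, psi3]
  linear_combination (4 : K) * E.b_relation

/-- A common root of `fTwo` and its derivative forces `Δ = 0`. -/
theorem Δ_eq_zero_of_fTwo_fTwoD [CharZero K] {x : K} (h1 : fTwo E x = 0) (h2 : fTwoD E x = 0) : E.Δ = 0 := by
  have h576 : (-576 : K) * E.Δ = 0 := by
    simp only [fTwo, fTwoD] at h1 h2
    rw [WeierstrassCurve.Δ]
    linear_combination
      (-36 * (12 * (48 * E.b₄ - 2 * E.b₂ ^ 2) * x + 2 * E.b₂ * (48 * E.b₄ - 2 * E.b₂ ^ 2) -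
        12 * (36 * E.b₆ - 2 * E.b₂ * E.b₄))) * h1 +
      ((48 * E.b₄ - 2 * E.b₂ ^ 2) ^ 2 +
        (12 * (48 * E.b₄ - 2 * E.b₂ ^ 2) * x + 2 * E.b₂ * (48 * E.b₄ - 2 * E.b₂ ^ 2) -
          12 * (36 * E.b₆ - 2 * E.b₂ * E.b₄)) * (12 * x + E.b₂)) * h2 +
      (144 * E.b₂ ^ 2) * E.b_relation
  have h : (-576 : K) ≠ 0 := by norm_num
  exact (mul_eq_zero.mp h576).resolve_left h

/-- (D3) `fTwo` and `psi3` have no common root when `Δ ≠ 0`. -/
theorem Δ_eq_zero_of_fTwo_psi3 [CharZero K] {x : K} (h1 : fTwo E x = 0) (h2 : psi3 E x = 0) :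
    E.Δ = 0 := by
  refine Δ_eq_zero_of_fTwo_fTwoD E h1 ?_
  have := fTwoD_sq E x
  rw [h1, h2] at this
  simpa using this

/-- (D3) `fTwo` and `phi2` have no common root when `Δ ≠ 0`. -/
theorem Δ_eq_zero_of_fTwo_phi2 [CharZero K] {x : K} (h1 : fTwo E x = 0) (h2 : phi2 E x = 0) :
    E.Δ = 0 := by
  refine Δ_eq_zero_of_fTwo_psi3 E h1 ?_
  have := phi2_eq E x
  rw [h1, h2] at this
  linear_combination this

theorem b₈_eq [CharZero K] : E.b₈ = (E.b₂ * E.b₆ - E.b₄ ^ 2) / 4 := by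
  have := E.b_relation
  field_simp
  linear_combination this

/-- (D5) `fTwo (x(2P)) * fTwo x ^ 3 = prePsi4 x ^ 2`, homogenised. -/
theorem dup_fTwo [CharZero K] (x : K) :
    4 * phi2 E x ^ 3 + E.b₂ * phi2 E x ^ 2 * fTwo E x + 2 * E.b₄ * phi2 E x * fTwo E x ^ 2 +
      E.b₆ * fTwo E x ^ 3 = prePsi4 E x ^ 2 := by
  simp only [prePsi4, phi2, fTwo, b₈_eq]
  field_simp
  ring

/-- (D6) `bigG = - psi3 * Psi5`. -/
theorem bigG_eq [CharZero K] (x : K) : bigG E x = - psi3 E x * Psi5 E x := by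
  simp only [bigG, Psi5, prePsi4, phi2, psi3, fTwo, b₈_eq]
  field_simp
  ring

end Scalar

section Point

variable {K : Type*} [Field K] {E : WeierstrassCurve K}

open WeierstrassCurve.Affine

/-- The `x`-coordinate of a point (junk value `0` at infinity). -/
def xCoord : E.toAffine.Point → K
  | .zero => 0
  | .some x _ _ => x

@[simp] theorem xCoord_some {x y : K} (h : E.toAffine.Nonsingular x y) :
    xCoord (Point.some x y h) = x := rfl

@[simp] theorem xCoord_zero : xCoord (0 : E.toAffine.Point) = 0 := rfl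

@[simp] theorem xCoord_neg (P : E.toAffine.Point) : xCoord (-P) = xCoord P := by
  cases P with
  | zero => rfl
  | some x y h => rfl

/-- (D4) two nonzero points have the same `x`-coordinate iff they are equal up to sign. -/
theorem xCoord_eq_iff {P Q : E.toAffine.Point} (hP : P ≠ 0) (hQ : Q ≠ 0) :
    xCoord P = xCoord Q ↔ P = Q ∨ P = -Q := by
  cases P with
  | zero => exact absurd rfl hP
  | some x₁ y₁ h₁ =>
    cases Q with
    | zero => exact absurd rfl hQ
    | some x₂ y₂ h₂ => exact Point.X_eq_iff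

/-- On the curve, `(2y + a₁x + a₃)² = fTwo x`. -/
theorem sq_eq_fTwo {x y : K} (h : E.toAffine.Equation x y) :
    (2 * y + E.a₁ * x + E.a₃) ^ 2 = fTwo E x := by
  rw [Affine.equation_iff] at h
  simp only [fTwo, WeierstrassCurve.b₂, WeierstrassCurve.b₄, WeierstrassCurve.b₆]
  linear_combination 4 * h

variable [DecidableEq K]

/-- (D1) for a nonzero point `P`: `2P = 0 ↔ fTwo (x P) = 0`. -/
theorem add_self_eq_zero_iff {P : E.toAffine.Point} (hP : P ≠ 0) :
    P + P = 0 ↔ fTwo E (xCoord P) = 0 := by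
  cases P with
  | zero => exact absurd rfl hP
  | some x y h =>
    rw [xCoord_some, ← sq_eq_fTwo h.1, sq_eq_zero_iff]
    constructor
    · intro h2
      by_contra hne
      have hy : y ≠ E.toAffine.negY x y := by
        intro hy
        apply hne
        simp only [Affine.negY] at hy
        linear_combination hy
      rw [Point.add_self_of_Y_ne hy] at h2
      exact Point.some_ne_zero _ h2
    · intro h0
      apply Point.add_self_of_Y_eq
      simp only [Affine.negY]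
      linear_combination h0

/-- (D2) the duplication formula: `x(2P) * fTwo (x P) = phi2 (x P)` when `2P ≠ 0`. -/
theorem xCoord_add_self {P : E.toAffine.Point} (hP : P ≠ 0) (h2 : P + P ≠ 0) :
    xCoord (P + P) * fTwo E (xCoord P) = phi2 E (xCoord P) := by
  cases P with
  | zero => exact absurd rfl hP
  | some x y h =>
    have hy : y ≠ E.toAffine.negY x y := by
      intro hy
      exact h2 (Point.add_self_of_Y_eq hy)
    have hD : 2 * y + E.a₁ * x + E.a₃ ≠ 0 := by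
      intro h0
      apply hy
      simp only [Affine.negY]
      linear_combination h0
    have heq := (Affine.equation_iff _ _).mp h.1
    have hD' : y - E.toAffine.negY x y = 2 * y + E.a₁ * x + E.a₃ := by
      simp only [Affine.negY]
      ring
    have hsl : E.toAffine.slope x x y y =
        (3 * x ^ 2 + 2 * E.a₂ * x + E.a₄ - E.a₁ * y) / (2 * y + E.a₁ * x + E.a₃) := by
      rw [Affine.slope_of_Y_ne rfl hy, hD']
    rw [Point.add_self_of_Y_ne hy, xCoord_some, xCoord_some, ← sq_eq_fTwo h.1, hsl]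
    have hpoly : (3 * x ^ 2 + 2 * E.a₂ * x + E.a₄ - E.a₁ * y) ^ 2 +
        E.a₁ * (3 * x ^ 2 + 2 * E.a₂ * x + E.a₄ - E.a₁ * y) * (2 * y + E.a₁ * x + E.a₃) -
        (E.a₂ + 2 * x) * (2 * y + E.a₁ * x + E.a₃) ^ 2 = phi2 E x := by
      simp only [phi2, WeierstrassCurve.b₄, WeierstrassCurve.b₆, WeierstrassCurve.b₈]
      linear_combination (-(E.a₁ ^ 2 + 4 * E.a₂ + 8 * x)) * heq
    rw [← hpoly]
    generalize 3 * x ^ 2 + 2 * E.a₂ * x + E.a₄ - E.a₁ * y = N
    generalize 2 * y + E.a₁ * x + E.a₃ = D at hD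
    show ((N / D) ^ 2 + E.a₁ * (N / D) - E.a₂ - x - x) * D ^ 2 = _
    field_simp
    ring

/-- `fTwo (x P) ≠ 0` when `2P ≠ 0`. -/
theorem fTwo_xCoord_ne_zero {P : E.toAffine.Point} (hP : P ≠ 0) (h2 : P + P ≠ 0) :
    fTwo E (xCoord P) ≠ 0 := fun h => h2 ((add_self_eq_zero_iff hP).mpr h)

end Point

section Map

open WeierstrassCurve.Affine

variable {R S F K : Type*} [CommRing R] [CommRing S] [Field F] [Field K] [DecidableEq F]
  [DecidableEq K] {W' : WeierstrassCurve R} [Algebra R S] [Algebra R F] [Algebra S F]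
  [IsScalarTower R S F] [Algebra R K] [Algebra S K] [IsScalarTower R S K]

/-- The `x`-coordinate is compatible with the maps on points induced by algebra maps. -/
theorem xCoord_map (f : F →ₐ[S] K) (P : (W'⁄F).Point) :
    xCoord (E := W'.baseChange K) (Point.map f P) = f (xCoord (E := W'.baseChange F) P) := by
  cases P with
  | zero => exact (map_zero f).symm
  | some x y h => rfl

end Map

end Fermat.Agent.S51
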