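import Mathlib
import Fermat.Prelude.Def_FLTPrelim_GaloisRep
import Fermat.Agent.S51.Dup

/-!
# S51 support: Galois-stable lines in `E[3]`, `E[5]` and rationality of `x`-coordinates
-/

set_option autoImplicit false
set_option linter.style.haveILetI false

open WeierstrassCurve WeierstrassCurve.Affine WeierstrassCurve.Affine.Point

namespace Fermat.Agent.S51

/-- Elements of `Q̄` fixed by the absolute Galois group are rational. -/
theorem mem_range_of_forall_galois_fixed (x : AlgebraicClosure ℚ)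
    (h : ∀ σ : AlgebraicClosure ℚ ≃ₐ[ℚ] AlgebraicClosure ℚ, σ x = x) :
    x ∈ Set.range (algebraMap ℚ (AlgebraicClosure ℚ)) := by
  haveI : Algebra.IsAlgebraic ℚ (AlgebraicClosure ℚ) := AlgebraicClosure.isAlgebraic ℚ
  haveI : IsAlgClosure ℚ (AlgebraicClosure ℚ) := ⟨inferInstance, inferInstance⟩
  haveI : IsGalois ℚ (AlgebraicClosure ℚ) := inferInstance
  exact (InfiniteGalois.mem_range_algebraMap_iff_fixed x).mpr h

section Line

variable {p : ℕ} [Fact p.Prime] {V : Type*} [AddCommGroup V] [Module (ZMod p) V]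

/-- In a finite `𝔽_p`-vector space with fewer than `p³` elements, a proper nonzero subspace is a
line. -/
theorem exists_generator_of_ne_bot_of_ne_top [Finite V] (hcard : Nat.card V < p ^ 3)
    (N : Submodule (ZMod p) V) (hbot : N ≠ ⊥) (htop : N ≠ ⊤) :
    ∃ v ∈ N, v ≠ 0 ∧ ∀ w ∈ N, ∃ c : ZMod p, w = c • v := by
  have hp : p.Prime := Fact.out
  haveI : Module.Finite (ZMod p) V := Module.Finite.of_finite
  have h1 : Nat.card V = p ^ Module.finrank (ZMod p) V := by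
    rw [Module.natCard_eq_pow_finrank (K := ZMod p) (V := V), Nat.card_zmod]
  have h2 : Module.finrank (ZMod p) V ≤ 2 := by
    rw [h1] at hcard
    have := (Nat.pow_lt_pow_iff_right hp.one_lt).mp hcard
    omega
  have h3 : Module.finrank (ZMod p) N < Module.finrank (ZMod p) V :=
    Submodule.finrank_lt htop
  have h4 : Module.finrank (ZMod p) N ≠ 0 := by
    intro h0
    exact hbot (Submodule.finrank_eq_zero.mp h0)
  have h5 : Module.finrank (ZMod p) N = 1 := by omega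
  obtain ⟨v, hv, hspan⟩ := finrank_eq_one_iff'.mp h5
  refine ⟨v.1, v.2, fun h => hv (Subtype.ext h), fun w hw => ?_⟩
  obtain ⟨c, hc⟩ := hspan ⟨w, hw⟩
  exact ⟨c, (congrArg Subtype.val hc).symm⟩

end Line

section Points

variable {E : Affine ℚ}

theorem xCoord_smul (σ : AlgebraicClosure ℚ ≃ₐ[ℚ] AlgebraicClosure ℚ)
    (P : (E⁄(AlgebraicClosure ℚ)).Point) : xCoord (σ • P) = σ (xCoord P) := by
  cases P with
  | zero => exact (map_zero σ).symm
  | some x y h => rfl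

theorem smul_ne_zero_of_ne_zero (σ : AlgebraicClosure ℚ ≃ₐ[ℚ] AlgebraicClosure ℚ)
    {P : (E⁄(AlgebraicClosure ℚ)).Point} (hP : P ≠ 0) : σ • P ≠ 0 := by
  intro h
  apply hP
  have := congrArg (fun Q => σ⁻¹ • Q) h
  simp only [inv_smul_smul] at this
  exact this

/-- Nonzero points with the same `x`-coordinate are equal up to sign. -/
theorem eq_or_eq_neg_of_xCoord_eq {P Q : (E⁄(AlgebraicClosure ℚ)).Point} (hP : P ≠ 0)
    (hQ : Q ≠ 0) (h : xCoord P = xCoord Q) : P = Q ∨ P = -Q := by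
  apply eq_or_eq_neg_of_xRep_eq_xRep
  cases P with
  | zero => exact absurd rfl hP
  | some x y h1 =>
    cases Q with
    | zero => exact absurd rfl hQ
    | some x' y' h2 =>
      simp only [xCoord_some] at h
      simp [h]

/-- If `E[p]` is nontrivial with fewer than `p³` elements and the mod-`p` representation is not
irreducible, there is a point `P` of order `p` whose Galois conjugates are nonzero multiples
of `P`. -/
theorem exists_stable_point (p : ℕ) [Fact p.Prime]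
    (hnt : Nontrivial (Submodule.torsionBy ℤ (E⁄(AlgebraicClosure ℚ)).Point p))
    (hfin : Finite (Submodule.torsionBy ℤ (E⁄(AlgebraicClosure ℚ)).Point p))
    (hcard : Nat.card (Submodule.torsionBy ℤ (E⁄(AlgebraicClosure ℚ)).Point p) < p ^ 3)
    (hred : ¬ GaloisRepIsIrreducible (K := AlgebraicClosure ℚ) ℚ E p) :
    ∃ P : (E⁄(AlgebraicClosure ℚ)).Point, P ≠ 0 ∧ (p : ℤ) • P = 0 ∧
      ∀ σ : AlgebraicClosure ℚ ≃ₐ[ℚ] AlgebraicClosure ℚ,
        ∃ k : ℕ, 0 < k ∧ k < p ∧ σ • P = k • P := by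
  have hp : p.Prime := Fact.out
  haveI : NeZero p := ⟨hp.ne_zero⟩
  unfold GaloisRepIsIrreducible at hred
  rw [not_and] at hred
  have h1 := hred hnt
  push Not at h1
  obtain ⟨N, hstable, hbot, htop⟩ := h1
  obtain ⟨v, hvN, hv0, hgen⟩ := exists_generator_of_ne_bot_of_ne_top hcard N hbot htop
  refine ⟨v.1, fun h => hv0 (Subtype.ext h), ?_, fun σ => ?_⟩
  · exact (Submodule.mem_torsionBy_iff _ _).mp v.2
  · obtain ⟨c, hc⟩ := hgen (σ • v) (hstable σ v hvN)
    have hc' : σ • v = c.val • v := by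
      rw [hc, ← Nat.cast_smul_eq_nsmul (ZMod p), ZMod.natCast_zmod_val]
    refine ⟨c.val, ?_, ZMod.val_lt c, ?_⟩
    · rcases Nat.eq_zero_or_pos c.val with h0 | h0
      · exfalso
        rw [h0, zero_smul] at hc'
        have h2 : σ • (v : (E⁄(AlgebraicClosure ℚ)).Point) = 0 :=
          congrArg Subtype.val hc'
        exact smul_ne_zero_of_ne_zero σ (fun h => hv0 (Subtype.ext h)) h2
      · exact h0
    · have h2 : ((σ • v : Submodule.torsionBy ℤ (E⁄(AlgebraicClosure ℚ)).Point p) :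
          (E⁄(AlgebraicClosure ℚ)).Point) = ((c.val • v :
            Submodule.torsionBy ℤ (E⁄(AlgebraicClosure ℚ)).Point p) :
              (E⁄(AlgebraicClosure ℚ)).Point) := congrArg Subtype.val hc'
      rw [AddSubmonoidClass.coe_nsmul] at h2
      exact h2

instance fact_prime_three_s51 : Fact (Nat.Prime 3) := ⟨Nat.prime_three⟩
instance fact_prime_five_s51 : Fact (Nat.Prime 5) := ⟨Nat.prime_five⟩

/-- **Reducible mod 3**: a point `R` of order 3 generating a Galois-stable line; its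
`x`-coordinate is rational. -/
theorem exists_point_three
    (hnt : Nontrivial (Submodule.torsionBy ℤ (E⁄(AlgebraicClosure ℚ)).Point (3 : ℕ)))
    (hfin : Finite (Submodule.torsionBy ℤ (E⁄(AlgebraicClosure ℚ)).Point (3 : ℕ)))
    (hcard : Nat.card (Submodule.torsionBy ℤ (E⁄(AlgebraicClosure ℚ)).Point (3 : ℕ)) ≤ 9)
    (hred : ¬ GaloisRepIsIrreducible (K := AlgebraicClosure ℚ) ℚ E 3) :
    ∃ R : (E⁄(AlgebraicClosure ℚ)).Point, R ≠ 0 ∧ (3 : ℤ) • R = 0 ∧
      (∀ σ : AlgebraicClosure ℚ ≃ₐ[ℚ] AlgebraicClosure ℚ, σ • R = R ∨ σ • R = -R) ∧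
      ∃ q0 : ℚ, xCoord R = algebraMap ℚ (AlgebraicClosure ℚ) q0 := by
  obtain ⟨R, hR0, hR3, hσ⟩ := exists_stable_point 3 hnt hfin (lt_of_le_of_lt hcard (by norm_num)) hred
  have h3 : (3 : ℕ) • R = 0 := by exact_mod_cast hR3
  have e2 : (2 : ℕ) • R = -R := by
    rw [eq_neg_iff_add_eq_zero]
    calc (2 : ℕ) • R + R = (3 : ℕ) • R := by abel
      _ = 0 := h3
  have key : ∀ σ : AlgebraicClosure ℚ ≃ₐ[ℚ] AlgebraicClosure ℚ, σ • R = R ∨ σ • R = -R := by
    intro σ
    obtain ⟨k, hk0, hk3, hk⟩ := hσ σ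
    rw [hk]
    interval_cases k
    · left; rw [one_smul]
    · right; exact e2
  refine ⟨R, hR0, by exact_mod_cast hR3, key, ?_⟩
  obtain ⟨q0, hq0⟩ := mem_range_of_forall_galois_fixed (xCoord R) fun σ => by
    rw [← xCoord_smul]
    rcases key σ with h | h
    · rw [h]
    · rw [h, xCoord_neg]
  exact ⟨q0, hq0.symm⟩

/-- **Reducible mod 5**: a point `P` of order 5 generating a Galois-stable line; `x(P) + x(2P)`
and `x(P) x(2P)` are rational. -/
theorem exists_point_five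
    (hnt : Nontrivial (Submodule.torsionBy ℤ (E⁄(AlgebraicClosure ℚ)).Point (5 : ℕ)))
    (hfin : Finite (Submodule.torsionBy ℤ (E⁄(AlgebraicClosure ℚ)).Point (5 : ℕ)))
    (hcard : Nat.card (Submodule.torsionBy ℤ (E⁄(AlgebraicClosure ℚ)).Point (5 : ℕ)) ≤ 33)
    (hred : ¬ GaloisRepIsIrreducible (K := AlgebraicClosure ℚ) ℚ E 5) :
    ∃ P : (E⁄(AlgebraicClosure ℚ)).Point, P ≠ 0 ∧ (5 : ℤ) • P = 0 ∧
      (∀ σ : AlgebraicClosure ℚ ≃ₐ[ℚ] AlgebraicClosure ℚ,
        σ • P = P ∨ σ • P = -P ∨ σ • P = (2 : ℤ) • P ∨ σ • P = -((2 : ℤ) • P)) ∧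
      ∃ q1 q2 : ℚ,
        xCoord P + xCoord ((2 : ℤ) • P) = algebraMap ℚ (AlgebraicClosure ℚ) q1 ∧
        xCoord P * xCoord ((2 : ℤ) • P) = algebraMap ℚ (AlgebraicClosure ℚ) q2 := by
  obtain ⟨P, hP0, hP5, hσ⟩ := exists_stable_point 5 hnt hfin (lt_of_le_of_lt hcard (by norm_num)) hred
  have h5 : (5 : ℕ) • P = 0 := by exact_mod_cast hP5
  have hz2 : (2 : ℤ) • P = (2 : ℕ) • P := by
    rw [← natCast_zsmul]; rfl
  have e3 : (3 : ℕ) • P = -((2 : ℕ) • P) := by
    rw [eq_neg_iff_add_eq_zero, ← add_nsmul]; exact h5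
  have e4 : (4 : ℕ) • P = -P := by
    rw [eq_neg_iff_add_eq_zero]
    calc (4 : ℕ) • P + P = (5 : ℕ) • P := by abel
      _ = 0 := h5
  have e6 : (6 : ℕ) • P = P := by
    calc (6 : ℕ) • P = (5 : ℕ) • P + P := by abel
      _ = P := by rw [h5, zero_add]
  have e8 : (8 : ℕ) • P = -((2 : ℕ) • P) := by
    calc (8 : ℕ) • P = (5 : ℕ) • P + (3 : ℕ) • P := by abel
      _ = -((2 : ℕ) • P) := by rw [h5, zero_add, e3]
  have hline : ∀ σ : AlgebraicClosure ℚ ≃ₐ[ℚ] AlgebraicClosure ℚ,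
      σ • P = P ∨ σ • P = -P ∨ σ • P = (2 : ℤ) • P ∨ σ • P = -((2 : ℤ) • P) := by
    intro σ
    obtain ⟨k, hk0, hk5, hk⟩ := hσ σ
    rw [hk, hz2]
    interval_cases k
    · left; rw [one_smul]
    · right; right; left; rfl
    · right; right; right; exact e3
    · right; left; exact e4
  -- the action of `σ` on the pair of `x`-coordinates
  have key : ∀ σ : AlgebraicClosure ℚ ≃ₐ[ℚ] AlgebraicClosure ℚ,
      (σ (xCoord P) = xCoord P ∧ σ (xCoord ((2 : ℕ) • P)) = xCoord ((2 : ℕ) • P)) ∨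
      (σ (xCoord P) = xCoord ((2 : ℕ) • P) ∧ σ (xCoord ((2 : ℕ) • P)) = xCoord P) := by
    intro σ
    obtain ⟨k, hk0, hk5, hk⟩ := hσ σ
    have h2 : σ • ((2 : ℕ) • P) = (2 * k) • P := by
      have h3 := map_nsmul (DistribSMul.toAddMonoidHom (E⁄(AlgebraicClosure ℚ)).Point σ) 2 P
      rw [DistribSMul.toAddMonoidHom_apply, DistribSMul.toAddMonoidHom_apply, hk] at h3
      rw [h3, mul_comm, mul_nsmul]
    rw [← xCoord_smul, ← xCoord_smul, hk, h2]
    interval_cases k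
    · left; exact ⟨by rw [one_smul], by norm_num⟩
    · right; exact ⟨rfl, by norm_num [e4, xCoord_neg]⟩
    · right; exact ⟨by rw [e3, xCoord_neg], by norm_num [e6]⟩
    · left; exact ⟨by rw [e4, xCoord_neg], by norm_num [e8, xCoord_neg]⟩
  obtain ⟨q1, hq1⟩ := mem_range_of_forall_galois_fixed
    (xCoord P + xCoord ((2 : ℕ) • P)) fun σ => by
      rcases key σ with ⟨h1, h2⟩ | ⟨h1, h2⟩
      · rw [map_add, h1, h2]
      · rw [map_add, h1, h2, add_comm]
  obtain ⟨q2, hq2⟩ := mem_range_of_forall_galois_fixed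
    (xCoord P * xCoord ((2 : ℕ) • P)) fun σ => by
      rcases key σ with ⟨h1, h2⟩ | ⟨h1, h2⟩
      · rw [map_mul, h1, h2]
      · rw [map_mul, h1, h2, mul_comm]
  refine ⟨P, hP0, by exact_mod_cast hP5, hline, q1, q2, ?_, ?_⟩
  · rw [hz2]; exact hq1.symm
  · rw [hz2]; exact hq2.symm

/-- A point of order 3 and a point of order 5 have distinct `x`-coordinates. -/
theorem xCoord_ne_of_three_of_five {R P : (E⁄(AlgebraicClosure ℚ)).Point} (hR0 : R ≠ 0)
    (hR3 : (3 : ℤ) • R = 0) (hP0 : P ≠ 0) (hP5 : (5 : ℤ) • P = 0) : xCoord R ≠ xCoord P := by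
  intro h
  have h3 : (3 : ℤ) • P = 0 := by
    rcases eq_or_eq_neg_of_xCoord_eq hR0 hP0 h with rfl | rfl
    · exact hR3
    · rw [zsmul_neg, neg_eq_zero] at hR3
      exact hR3
  apply hP0
  have : P = (2 : ℤ) • ((3 : ℤ) • P) - (5 : ℤ) • P := by abel
  rw [this, h3, hP5, zsmul_zero, sub_zero]

/-- Twice a point of order 5 is a nonzero point of order 5. -/
theorem two_zsmul_ne_zero_of_five {P : (E⁄(AlgebraicClosure ℚ)).Point} (hP0 : P ≠ 0)
    (hP5 : (5 : ℤ) • P = 0) : (2 : ℤ) • P ≠ 0 ∧ (5 : ℤ) • ((2 : ℤ) • P) = 0 := by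
  constructor
  · intro h2
    apply hP0
    have : P = (5 : ℤ) • P - (2 : ℤ) • ((2 : ℤ) • P) := by abel
    rw [this, h2, hP5, zsmul_zero, sub_zero]
  · have : (5 : ℤ) • ((2 : ℤ) • P) = (2 : ℤ) • ((5 : ℤ) • P) := by abel
    rw [this, hP5, zsmul_zero]

/-- **(G3)** the `x`-coordinate of a point of order 3 differs from those of `P` and `2P` for a
point `P` of order 5. -/
theorem xCoord_ne_and_ne {R P : (E⁄(AlgebraicClosure ℚ)).Point} (hR0 : R ≠ 0)
    (hR3 : (3 : ℤ) • R = 0) (hP0 : P ≠ 0) (hP5 : (5 : ℤ) • P = 0) :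
    xCoord R ≠ xCoord P ∧ xCoord R ≠ xCoord ((2 : ℤ) • P) :=
  ⟨xCoord_ne_of_three_of_five hR0 hR3 hP0 hP5,
    xCoord_ne_of_three_of_five hR0 hR3 (two_zsmul_ne_zero_of_five hP0 hP5).1
      (two_zsmul_ne_zero_of_five hP0 hP5).2⟩

end Points

end Fermat.Agent.S51
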