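import Mathlib

/-!
# S51: the invariants of a pair (3-torsion point, 5-torsion subgroup) and their identities

Data in a field `K` of characteristic `0`: `b2 b4 b6 b8` with `4 b8 = b2 b6 - b4^2`, and
`x0 x1 x2` with `ψ₃(x0) = 0` (`x0` the `x`-coordinate of a point of order `3`) and
`x2 f(x1) = φ₂(x1)`, `x1 f(x2) = φ₂(x2)` (`x1, x2` the `x`-coordinates of `P, 2P`, `P` of order `5`).

With `s1 = x1 + x2`, `s2 = x1 x2`, `Dd = s1^2 - 4 s2`, `a = x0^2 - s1 x0 + s2`, `X = Dd / a`,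
`s = s1 - 2 x0`, `B2 = b2 + 12 x0`, `τ = (4 (s1^2 - s2) + b2 s1 + 2 b4) / Dd - 11` we prove
`(I1)`-`(I4)` of the blueprint. The proof normalises to Tate normal form.
-/

set_option autoImplicit false

namespace Fermat.Agent.S51

section
variable {K : Type*} [Field K]

/-- Tate normal form constraint: `ψ₃` at `ζ` for the Tate curve `E_b`
(`b2 = b^2-6b+1`, `b4 = b(b-1)`, `b6 = b^2`, `b8 = -b^3`). -/
def PsiT (ζ b : K) : K := 3*ζ^4 + (b^2-6*b+1)*ζ^3 + 3*b*(b-1)*ζ^2 + 3*b^2*ζ - b^3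

theorem I1_tate (b : K) (hb : b ≠ 0) :
    (b^4-12*b^3+14*b^2+12*b+1)^3 * ((b^2-11*b-1)/b)
      = (b^5*(b^2-11*b-1)) * (((b^2-11*b-1)/b)^2 + 10*((b^2-11*b-1)/b) + 5)^3 := by
  field_simp
  ring

theorem I2_tate (ζ b : K) (h : PsiT ζ b = 0) :
    (ζ*(ζ-b))*(2*(b^2-11*b-1)*(ζ*(ζ-b)) - 3*b^3 + 13*b*(ζ*(ζ-b)))^2
      + (b^2+4*(ζ*(ζ-b)))*(4*b^2-9*(ζ*(ζ-b)))*((ζ*(ζ-b))+b^2)^2 = 0 := by
  unfold PsiT at h
  linear_combination (-12*ζ^4 + 4*ζ^3*b^2 + 24*ζ^3*b + 4*ζ^3 - 12*ζ^2*b^3 - 12*ζ^2*b^2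
    + 12*ζ*b^4 - 4*b^5) * h

theorem I3_tate (ζ b : K) (h : PsiT ζ b = 0) :
    (ζ*(ζ-b))*((8*(ζ*(ζ-b))+2*b^2)*(ζ*(ζ-b))*(b^2-6*b+1+12*ζ)
        - (3*b^4+3*b^2*(ζ*(ζ-b))-36*(ζ*(ζ-b))^2)*(b-2*ζ))^2
      + (b^2+3*(ζ*(ζ-b)))^2*b^2*(b^2+4*(ζ*(ζ-b)))*(4*b^2-9*(ζ*(ζ-b)))*(b-2*ζ)^2 = 0 := by
  unfold PsiT at h
  linear_combination (192*ζ^8 + 64*ζ^7*b^2 - 768*ζ^7*b + 64*ζ^7 - 320*ζ^6*b^3 + 1248*ζ^6*b^2
    - 128*ζ^6*b + 672*ζ^5*b^4 - 1056*ζ^5*b^3 + 96*ζ^5*b^2 - 768*ζ^4*b^5 + 492*ζ^4*b^4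
    - 32*ζ^4*b^3 + 516*ζ^3*b^6 - 120*ζ^3*b^5 + 4*ζ^3*b^4 - 204*ζ^2*b^7 + 12*ζ^2*b^6
    + 44*ζ*b^8 - 4*b^9) * h

/-- The identities `(I2)`, `(I3)` in Tate-normal-form coordinates. -/
theorem identities_tate (lam b ζ : K) (hb : b ≠ 0) (hζ : ζ ≠ 0) (hζb : ζ ≠ b)
    (h : PsiT ζ b = 0) :
    let w := ζ * (ζ - b)
    let X := b^2 / w
    let tau := (b^2 - 11*b - 1) / b
    let s := lam * (b - 2*ζ)
    let B2 := lam * (b^2 - 6*b + 1 + 12*ζ)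
    (2*tau*X - 3*X^2 + 13*X)^2 = -X*(X+4)*(4*X-9)*(1+X)^2 ∧
    ((8+2*X)*B2 - (3*X^2+3*X-36)*s)^2 = -(X+3)^2*X*(X+4)*(4*X-9)*s^2 := by
  intro w X tau s B2
  have hw : w ≠ 0 := mul_ne_zero hζ (sub_ne_zero.mpr hζb)
  have k2 := I2_tate ζ b h
  have k3 := I3_tate ζ b h
  constructor
  · have : (2*tau*X - 3*X^2 + 13*X)^2 - (-X*(X+4)*(4*X-9)*(1+X)^2) =
        b^2 / w^5 * ((ζ*(ζ-b))*(2*(b^2-11*b-1)*(ζ*(ζ-b)) - 3*b^3 + 13*b*(ζ*(ζ-b)))^2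
      + (b^2+4*(ζ*(ζ-b)))*(4*b^2-9*(ζ*(ζ-b)))*((ζ*(ζ-b))+b^2)^2) := by
      simp only [X, tau, w]
      field_simp
      ring
    rw [k2, mul_zero, sub_eq_zero] at this
    exact this
  · have : ((8+2*X)*B2 - (3*X^2+3*X-36)*s)^2 - (-(X+3)^2*X*(X+4)*(4*X-9)*s^2) =
        lam^2 / w^5 * ((ζ*(ζ-b))*((8*(ζ*(ζ-b))+2*b^2)*(ζ*(ζ-b))*(b^2-6*b+1+12*ζ)
        - (3*b^4+3*b^2*(ζ*(ζ-b))-36*(ζ*(ζ-b))^2)*(b-2*ζ))^2
      + (b^2+3*(ζ*(ζ-b)))^2*b^2*(b^2+4*(ζ*(ζ-b)))*(4*b^2-9*(ζ*(ζ-b)))*(b-2*ζ)^2) := by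
      simp only [X, s, B2, w]
      field_simp
      ring
    rw [k3, mul_zero, sub_eq_zero] at this
    exact this

/-- Step 1: the parameters `b2, b4, b6` in terms of `x1`, `d = x2 - x1`, `b = d^3 / f(x1)`. -/
theorem params_of_five [CharZero K] (b2 b4 b6 b8 x1 d : K)
    (hb8 : 4*b8 = b2*b6 - b4^2) (hd : d ≠ 0)
    (hf1 : 4*x1^3 + b2*x1^2 + 2*b4*x1 + b6 ≠ 0)
    (hd1 : (x1 + d) * (4*x1^3 + b2*x1^2 + 2*b4*x1 + b6) = x1^4 - b4*x1^2 - 2*b6*x1 - b8)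
    (hd2 : x1 * (4*(x1+d)^3 + b2*(x1+d)^2 + 2*b4*(x1+d) + b6)
      = (x1+d)^4 - b4*(x1+d)^2 - 2*b6*(x1+d) - b8) :
    ∃ b : K, b ≠ 0 ∧
      b2 = (d/b)*(b^2-6*b+1) - 12*x1 ∧
      b4 = (d/b)^2*(b*(b-1)) - x1*((d/b)*(b^2-6*b+1) - 12*x1) - 6*x1^2 ∧
      4*x1^3 + b2*x1^2 + 2*b4*x1 + b6 = (d/b)^3*b^2 := by
  obtain ⟨F1, hF1⟩ : ∃ F1, F1 = 4*x1^3 + b2*x1^2 + 2*b4*x1 + b6 := ⟨_, rfl⟩
  rw [← hF1] at hf1 hd1 ⊢
  -- `β8 = -d β6`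
  have E1 : 3*x1^4 + b2*x1^3 + 3*b4*x1^2 + 3*b6*x1 + b8 = -d*F1 := by
    linear_combination hd1 - x1 * hF1
  -- `d^3 - β4 d - β6 = 0`
  have E2 : d^3 - (b4 + x1*b2 + 6*x1^2)*d - F1 = 0 := by
    apply mul_left_cancel₀ hd
    linear_combination hd1 - hd2 - (2*d + x1) * hF1
  -- `4 β8 = β2 β6 - β4^2`
  have E3 : 4*(-d*F1) = (b2 + 12*x1)*F1 - (b4 + x1*b2 + 6*x1^2)^2 := by
    rw [← E1, hF1]
    linear_combination hb8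
  have E4 : b4 + x1*b2 + 6*x1^2 = (d^3 - F1)/d := by
    field_simp
    linear_combination -E2
  have E5 : b2 + 12*x1 = d^4/F1 - 6*d + F1/d^2 := by
    rw [E4] at E3
    field_simp
    field_simp at E3
    linear_combination -E3
  refine ⟨d^3/F1, div_ne_zero (pow_ne_zero 3 hd) hf1, ?_, ?_, ?_⟩
  · have : b2 = (d^4/F1 - 6*d + F1/d^2) - 12*x1 := by linear_combination E5
    rw [this]
    field_simp
  · have : b4 = (d^3 - F1)/d - x1*b2 - 6*x1^2 := by linear_combination E4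
    rw [this]
    have : b2 = (d^4/F1 - 6*d + F1/d^2) - 12*x1 := by linear_combination E5
    rw [this]
    field_simp
  · field_simp

/-- All quantities in Tate coordinates `(x1, lam, b, ζ)`. -/
theorem quantities_tate [CharZero K] (x1 lam b ζ b2 b4 b6 b8 x0 x2 : K) (hlam : lam ≠ 0)
    (hb : b ≠ 0) (hζ : ζ ≠ 0) (hζb : ζ ≠ b)
    (e2 : b2 = lam*(b^2-6*b+1) - 12*x1)
    (e4 : b4 = lam^2*(b*(b-1)) - x1*b2 - 6*x1^2)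
    (e6 : b6 = lam^3*b^2 - 4*x1^3 - b2*x1^2 - 2*b4*x1)
    (e8 : b8 = (b2*b6 - b4^2)/4)
    (hx0 : x0 = x1 + ζ*lam) (hx2 : x2 = x1 + lam*b) :
    3*x0^4 + b2*x0^3 + 3*b4*x0^2 + 3*b6*x0 + b8 = lam^4 * PsiT ζ b ∧
    (x1 - x0)*(x2 - x0) = lam^2 * (ζ*(ζ-b)) ∧
    (x1 - x2)^2 / ((x1 - x0)*(x2 - x0)) = b^2 / (ζ*(ζ-b)) ∧
    x1 + x2 - 2*x0 = lam*(b - 2*ζ) ∧
    b2 + 12*x0 = lam*(b^2 - 6*b + 1 + 12*ζ) ∧
    (4*(x1^2 + x1*x2 + x2^2) + b2*(x1+x2) + 2*b4)/(x2 - x1)^2 - 11 = (b^2 - 11*b - 1)/b ∧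
    b2^2 - 24*b4 = lam^2*(b^4-12*b^3+14*b^2+12*b+1) ∧
    -b2^2*b8 - 8*b4^3 - 27*b6^2 + 9*b2*b4*b6 = lam^6*(b^5*(b^2-11*b-1)) := by
  subst hx2 hx0 e8 e6 e4 e2
  have hw : ζ*(ζ-b) ≠ 0 := mul_ne_zero hζ (sub_ne_zero.mpr hζb)
  have h4 : (4:K) ≠ 0 := by norm_num
  refine ⟨?_, ?_, ?_, ?_, ?_, ?_, ?_, ?_⟩
  · simp only [PsiT]
    field_simp
    ring
  · ring
  · have h1 : (x1 - (x1 + ζ*lam))*(x1 + lam*b - (x1 + ζ*lam)) = lam^2 * (ζ*(ζ-b)) := by ring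
    rw [h1]
    field_simp
    ring
  · ring
  · ring
  · have : x1 + lam * b - x1 = lam * b := by ring
    rw [this]
    field_simp
    ring
  · ring
  · field_simp
    ring

/-- **The identities (I1)-(I4)**, in terms of `x0`, `x1`, `x2`. -/
theorem identities_x [CharZero K] (b2 b4 b6 b8 x0 x1 x2 : K)
    (hb8 : 4*b8 = b2*b6 - b4^2)
    (h3 : 3*x0^4 + b2*x0^3 + 3*b4*x0^2 + 3*b6*x0 + b8 = 0)
    (hf1 : 4*x1^3 + b2*x1^2 + 2*b4*x1 + b6 ≠ 0)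
    (h12 : x2 * (4*x1^3 + b2*x1^2 + 2*b4*x1 + b6) = x1^4 - b4*x1^2 - 2*b6*x1 - b8)
    (h21 : x1 * (4*x2^3 + b2*x2^2 + 2*b4*x2 + b6) = x2^4 - b4*x2^2 - 2*b6*x2 - b8)
    (hx12 : x1 ≠ x2) (hx01 : x0 ≠ x1) (hx02 : x0 ≠ x2) :
    let a := (x1 - x0)*(x2 - x0)
    let X := (x1 - x2)^2 / a
    let s := x1 + x2 - 2*x0
    let B2 := b2 + 12*x0
    let tau := (4*(x1^2 + x1*x2 + x2^2) + b2*(x1+x2) + 2*b4)/(x2 - x1)^2 - 11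
    a ≠ 0 ∧
    (b2^2 - 24*b4)^3 * tau
      = (-b2^2*b8 - 8*b4^3 - 27*b6^2 + 9*b2*b4*b6) * (tau^2 + 10*tau + 5)^3 ∧
    (2*tau*X - 3*X^2 + 13*X)^2 = -X*(X+4)*(4*X-9)*(1+X)^2 ∧
    ((8+2*X)*B2 - (3*X^2+3*X-36)*s)^2 = -(X+3)^2*X*(X+4)*(4*X-9)*s^2 ∧
    X ≠ 0 ∧ X + 4 = s^2 / a := by
  intro a X s B2 tau
  have ha : a ≠ 0 := mul_ne_zero (sub_ne_zero.mpr hx01.symm) (sub_ne_zero.mpr (Ne.symm hx02))
  have hX0 : X ≠ 0 := div_ne_zero (pow_ne_zero 2 (sub_ne_zero.mpr hx12)) ha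
  have hX4 : X + 4 = s^2 / a := by
    simp only [X, s]
    field_simp
    simp only [a]
    ring
  refine ⟨ha, ?_, ?_, ?_, hX0, hX4⟩ <;> clear hX4 hX0
  all_goals
    -- normalise: `x2 = x1 + d`
    obtain ⟨d, rfl⟩ : ∃ d, x2 = x1 + d := ⟨x2 - x1, by ring⟩
    have hd : d ≠ 0 := by
      rintro rfl
      exact hx12 (by ring)
    obtain ⟨b, hb, e2, e4, e6⟩ := params_of_five b2 b4 b6 b8 x1 d hb8 hd hf1 h12 h21
    have hlam : d / b ≠ 0 := div_ne_zero hd hb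
    obtain ⟨lam, hlamdef⟩ : ∃ lam, lam = d / b := ⟨_, rfl⟩
    rw [← hlamdef] at e2 e4 e6 hlam
    have hdlam : d = lam * b := by rw [hlamdef]; field_simp
    obtain ⟨ζ, hζdef⟩ : ∃ ζ, ζ = (x0 - x1) / lam := ⟨_, rfl⟩
    have hx0 : x0 = x1 + ζ * lam := by rw [hζdef]; field_simp; ring
    have hζ0 : ζ ≠ 0 := by
      rw [hζdef]
      exact div_ne_zero (sub_ne_zero.mpr hx01) hlam
    have hζb : ζ ≠ b := by
      intro h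
      apply hx02
      rw [hx0, h, hdlam]
      ring
    have e6' : b6 = lam^3*b^2 - 4*x1^3 - b2*x1^2 - 2*b4*x1 := by linear_combination e6
    have e8 : b8 = (b2*b6 - b4^2)/4 := by
      field_simp
      linear_combination hb8
    have e4' : b4 = lam^2*(b*(b-1)) - x1*b2 - 6*x1^2 := by rw [e4, e2]
    have hx2 : x1 + d = x1 + lam * b := by rw [hdlam]
    obtain ⟨q1, q2, q3, q4, q5, q6, q7, q8⟩ := quantities_tate x1 lam b ζ b2 b4 b6 b8 x0 (x1 + d)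
      hlam hb hζ0 hζb e2 e4' e6' e8 hx0 hx2
    have hPsi : PsiT ζ b = 0 := by
      have : lam^4 * PsiT ζ b = 0 := by rw [← q1]; exact h3
      exact (mul_eq_zero.mp this).resolve_left (pow_ne_zero 4 hlam)
    obtain ⟨k2, k3⟩ := identities_tate lam b ζ hb hζ0 hζb hPsi
  · -- (I1)
    simp only [tau]
    rw [q6, q7, q8]
    have := I1_tate b hb
    linear_combination (lam^6) * this
  · -- (I2)
    simp only [tau, X, a]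
    rw [q6, q3]
    exact k2
  · -- (I3)
    simp only [X, a, s, B2]
    rw [q3, q4, q5]
    exact k3

/-! ### The invariants as functions of `x0`, `s1 = x1 + x2`, `s2 = x1 * x2` -/

/-- `(x1 - x2)^2`. -/
def invDd (s1 s2 : K) : K := s1^2 - 4*s2
/-- `(x1 - x0) (x2 - x0)`. -/
def invA (x0 s1 s2 : K) : K := x0^2 - s1*x0 + s2
/-- `X = (x1 - x2)^2 / ((x1 - x0)(x2 - x0))`. -/
def invX (x0 s1 s2 : K) : K := invDd s1 s2 / invA x0 s1 s2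
/-- `s = x1 + x2 - 2 x0`. -/
def invS (x0 s1 : K) : K := s1 - 2*x0
/-- `B2 = b2 + 12 x0`. -/
def invB2 (b2 x0 : K) : K := b2 + 12*x0
/-- `τ = (f(x2) - f(x1)) / (x2 - x1)^3 - 11`. -/
def invTau (b2 b4 s1 s2 : K) : K := (4*(s1^2 - s2) + b2*s1 + 2*b4) / invDd s1 s2 - 11

/-- The package of conclusions `(I1)`-`(I4)`, as a predicate on `b2 b4 b6 b8 x0 s1 s2`. -/
structure Identities (b2 b4 b6 b8 x0 s1 s2 : K) : Prop where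
  a_ne : invA x0 s1 s2 ≠ 0
  Dd_ne : invDd s1 s2 ≠ 0
  I1 : (b2^2 - 24*b4)^3 * invTau b2 b4 s1 s2
      = (-b2^2*b8 - 8*b4^3 - 27*b6^2 + 9*b2*b4*b6)
        * ((invTau b2 b4 s1 s2)^2 + 10*invTau b2 b4 s1 s2 + 5)^3
  I2 : (2*invTau b2 b4 s1 s2*invX x0 s1 s2 - 3*(invX x0 s1 s2)^2 + 13*invX x0 s1 s2)^2
      = -invX x0 s1 s2*(invX x0 s1 s2+4)*(4*invX x0 s1 s2-9)*(1+invX x0 s1 s2)^2
  I3 : ((8+2*invX x0 s1 s2)*invB2 b2 x0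
        - (3*(invX x0 s1 s2)^2+3*invX x0 s1 s2-36)*invS x0 s1)^2
      = -(invX x0 s1 s2+3)^2*invX x0 s1 s2*(invX x0 s1 s2+4)*(4*invX x0 s1 s2-9)*(invS x0 s1)^2
  X_ne : invX x0 s1 s2 ≠ 0
  I4 : invX x0 s1 s2 + 4 = (invS x0 s1)^2 / invA x0 s1 s2

/-- **The identities (I1)-(I4)**, written through `x0`, `s1 = x1 + x2`, `s2 = x1 * x2`. -/
theorem identities [CharZero K] (b2 b4 b6 b8 x0 x1 x2 : K)
    (hb8 : 4*b8 = b2*b6 - b4^2)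
    (h3 : 3*x0^4 + b2*x0^3 + 3*b4*x0^2 + 3*b6*x0 + b8 = 0)
    (hf1 : 4*x1^3 + b2*x1^2 + 2*b4*x1 + b6 ≠ 0)
    (h12 : x2 * (4*x1^3 + b2*x1^2 + 2*b4*x1 + b6) = x1^4 - b4*x1^2 - 2*b6*x1 - b8)
    (h21 : x1 * (4*x2^3 + b2*x2^2 + 2*b4*x2 + b6) = x2^4 - b4*x2^2 - 2*b6*x2 - b8)
    (hx12 : x1 ≠ x2) (hx01 : x0 ≠ x1) (hx02 : x0 ≠ x2) :
    Identities b2 b4 b6 b8 x0 (x1 + x2) (x1 * x2) := by
  obtain ⟨ha, i1, i2, i3, hX, i4⟩ :=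
    identities_x b2 b4 b6 b8 x0 x1 x2 hb8 h3 hf1 h12 h21 hx12 hx01 hx02
  have eDd : invDd (x1 + x2) (x1 * x2) = (x1 - x2)^2 := by unfold invDd; ring
  have eDd' : invDd (x1 + x2) (x1 * x2) = (x2 - x1)^2 := by unfold invDd; ring
  have eA : invA x0 (x1 + x2) (x1 * x2) = (x1 - x0)*(x2 - x0) := by unfold invA; ring
  have eX : invX x0 (x1 + x2) (x1 * x2) = (x1 - x2)^2 / ((x1 - x0)*(x2 - x0)) := by
    unfold invX; rw [eDd, eA]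
  have eS : invS x0 (x1 + x2) = x1 + x2 - 2*x0 := rfl
  have eB : invB2 b2 x0 = b2 + 12*x0 := rfl
  have eT : invTau b2 b4 (x1 + x2) (x1 * x2)
      = (4*(x1^2 + x1*x2 + x2^2) + b2*(x1+x2) + 2*b4)/(x2 - x1)^2 - 11 := by
    unfold invTau
    rw [eDd']
    congr 2
    ring
  refine ⟨?_, ?_, ?_, ?_, ?_, ?_, ?_⟩
  · rw [eA]; exact ha
  · rw [eDd]; exact pow_ne_zero 2 (sub_ne_zero.mpr hx12)
  · rw [eT]; exact i1
  · rw [eT, eX]; exact i2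
  · rw [eX, eS, eB]; exact i3
  · rw [eX]; exact hX
  · rw [eX, eS, eA]; exact i4

end

section transport

variable {F K : Type*} [Field F] [Field K]

/-- The identities descend along a field homomorphism. -/
theorem Identities.of_map (φ : F →+* K) {b2 b4 b6 b8 x0 s1 s2 : F}
    (h : Identities (φ b2) (φ b4) (φ b6) (φ b8) (φ x0) (φ s1) (φ s2)) :
    Identities b2 b4 b6 b8 x0 s1 s2 := by
  have hinj := φ.injective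
  have eDd : invDd (φ s1) (φ s2) = φ (invDd s1 s2) := by simp [invDd, map_ofNat]
  have eA : invA (φ x0) (φ s1) (φ s2) = φ (invA x0 s1 s2) := by simp [invA]
  have eX : invX (φ x0) (φ s1) (φ s2) = φ (invX x0 s1 s2) := by
    unfold invX; rw [eDd, eA, map_div₀]
  have eS : invS (φ x0) (φ s1) = φ (invS x0 s1) := by simp [invS, map_ofNat]
  have eB : invB2 (φ b2) (φ x0) = φ (invB2 b2 x0) := by simp [invB2, map_ofNat]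
  have eT : invTau (φ b2) (φ b4) (φ s1) (φ s2) = φ (invTau b2 b4 s1 s2) := by
    unfold invTau; rw [eDd]; simp [map_ofNat]
  obtain ⟨h1, h2, h3, h4, h5, h6, h7⟩ := h
  rw [eA] at h1
  rw [eDd] at h2
  rw [eT] at h3 h4
  rw [eX] at h4 h5 h6 h7
  rw [eS, eB] at h5
  rw [eS, eA] at h7
  refine ⟨?_, ?_, ?_, ?_, ?_, ?_, ?_⟩
  · exact fun h0 => h1 (by rw [h0, map_zero])
  · exact fun h0 => h2 (by rw [h0, map_zero])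
  · apply hinj
    simpa [map_ofNat] using h3
  · apply hinj
    simpa [map_ofNat] using h4
  · apply hinj
    simpa [map_ofNat] using h5
  · exact fun h0 => h6 (by rw [h0, map_zero])
  · apply hinj
    simpa [map_ofNat] using h7

end transport

end Fermat.Agent.S51
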