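import Mathlib

/-!
# S51: the endgame over `ℚ`

Given the rational invariants `X, τ, B2, s` attached to a semistable curve with a rational
3-isogeny and a rational 5-isogeny, the identities (I1)–(I4) and the determination of the rational
points of `Y² = X(X-16)(X+9)`, we derive a contradiction with semistability at `5`.
-/

set_option autoImplicit false

namespace Fermat.Agent.S51

theorem prime_five_int : Prime (5 : ℤ) := Int.prime_iff_natAbs_prime.mpr (by norm_num)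

theorem five_dvd_of_dvd_mul {m d : ℤ} (hm : ¬ (5 : ℤ) ∣ m) (h : (5 : ℤ) ∣ m * d) : (5 : ℤ) ∣ d :=
  (prime_five_int.dvd_or_dvd h).resolve_left hm

/-- The arithmetic core: `A c₄³ = B Δ` with `5 ∤ A`, `B = 5 B'` or `25 B'`, `5 ∤ B'` forces
`5 ∣ c₄` and `5 ∣ Δ`. -/
theorem five_dvd_both {c4 d A B' : ℤ} (hA : ¬ (5 : ℤ) ∣ A) (hB' : ¬ (5 : ℤ) ∣ B')
    (h : A * c4 ^ 3 = 5 * B' * d ∨ A * c4 ^ 3 = 25 * B' * d) :
    (5 : ℤ) ∣ c4 ∧ (5 : ℤ) ∣ d := by
  have h5 : (5 : ℤ) ∣ A * c4 ^ 3 := by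
    rcases h with h | h
    · exact ⟨B' * d, by rw [h]; ring⟩
    · exact ⟨5 * B' * d, by rw [h]; ring⟩
  have hc : (5 : ℤ) ∣ c4 := prime_five_int.dvd_of_dvd_pow (five_dvd_of_dvd_mul hA h5)
  refine ⟨hc, ?_⟩
  obtain ⟨k, rfl⟩ := hc
  rcases h with h | h
  · have h3 : (5 : ℤ) * (B' * d) = 5 * (5 * (5 * A * k ^ 3)) := by linear_combination -h
    have h1 : (5 : ℤ) ∣ B' * d := ⟨5 * A * k ^ 3, mul_left_cancel₀ (by norm_num) h3⟩
    exact five_dvd_of_dvd_mul hB' h1
  · have h3 : (25 : ℤ) * (B' * d) = 25 * (5 * (A * k ^ 3)) := by linear_combination -h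
    have h1 : (5 : ℤ) ∣ B' * d := ⟨A * k ^ 3, mul_left_cancel₀ (by norm_num) h3⟩
    exact five_dvd_of_dvd_mul hB' h1

/-- The endgame: the identities (I1)-(I4) together with the determination of the rational points
of `Y² = X(X-16)(X+9)` contradict semistability. -/
theorem endgame (c4 Δ : ℤ) (hΔ : Δ ≠ 0)
    (hss : ∀ p : ℕ, p.Prime → (p : ℤ) ∣ Δ → ¬ (p : ℤ) ∣ c4)
    (X τ B2 s a : ℚ)
    (I1 : (c4 : ℚ) ^ 3 * τ = Δ * (τ ^ 2 + 10 * τ + 5) ^ 3)
    (I2 : (2 * τ * X - 3 * X ^ 2 + 13 * X) ^ 2 = -X * (X + 4) * (4 * X - 9) * (1 + X) ^ 2)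
    (I3 : ((8 + 2 * X) * B2 - (3 * X ^ 2 + 3 * X - 36) * s) ^ 2 =
      -(X + 3) ^ 2 * X * (X + 4) * (4 * X - 9) * s ^ 2)
    (hX0 : X ≠ 0) (I4 : X + 4 = s ^ 2 / a)
    (thmE : ∀ X Y : ℚ, Y ^ 2 = X * (X - 16) * (X + 9) → Y = 0 ∨ X = 36 ∨ X = -4) : False := by
  have hΔQ : (Δ : ℚ) ≠ 0 := by exact_mod_cast hΔ
  -- τ ≠ 0
  have hτ : τ ≠ 0 := by
    rintro rfl
    have : (Δ : ℚ) * 125 = 0 := by linear_combination -I1
    rcases mul_eq_zero.mp this with h | h
    · exact hΔQ h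
    · norm_num at h
  -- the contradiction from a value of τ
  have key : ∀ A B' : ℤ, ¬ (5 : ℤ) ∣ A → ¬ (5 : ℤ) ∣ B' →
      (A * c4 ^ 3 = 5 * B' * Δ ∨ A * c4 ^ 3 = 25 * B' * Δ) → False := by
    intro A B' hA hB' h
    obtain ⟨h1, h2⟩ := five_dvd_both hA hB' h
    exact hss 5 (by norm_num) (by exact_mod_cast h2) (by exact_mod_cast h1)
  have hτ10 : τ ≠ -10 := by
    rintro rfl
    refine key (-2) 1 (by norm_num) (by norm_num) (Or.inr ?_)
    have : ((-2 : ℤ) : ℚ) * (c4 : ℚ) ^ 3 = ((25 * 1 * Δ : ℤ) : ℚ) := by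
      push_cast; linear_combination (1 / 5 : ℚ) * I1
    exact_mod_cast this
  have hτ40 : τ ≠ -40 := by
    rintro rfl
    refine key (-8) (241 ^ 3) (by norm_num) (by norm_num) (Or.inr ?_)
    have : ((-8 : ℤ) : ℚ) * (c4 : ℚ) ^ 3 = ((25 * 241 ^ 3 * Δ : ℤ) : ℚ) := by
      push_cast; linear_combination (1 / 5 : ℚ) * I1
    exact_mod_cast this
  have hτ252 : τ ≠ -25 / 2 := by
    rintro rfl
    refine key (-32) (29 ^ 3) (by norm_num) (by norm_num) (Or.inl ?_)
    have : ((-32 : ℤ) : ℚ) * (c4 : ℚ) ^ 3 = ((5 * 29 ^ 3 * Δ : ℤ) : ℚ) := by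
      push_cast; linear_combination (64 / 25 : ℚ) * I1
    exact_mod_cast this
  have hτ258 : τ ≠ -25 / 8 := by
    rintro rfl
    refine key (64 ^ 3) (8 * 211 ^ 3) (by norm_num) (by norm_num) (Or.inl ?_)
    have : ((64 ^ 3 : ℤ) : ℚ) * (c4 : ℚ) ^ 3 = ((5 * (8 * 211 ^ 3) * Δ : ℤ) : ℚ) := by
      push_cast; linear_combination (-(64 ^ 3 * 8) / 25 : ℚ) * I1
    exact_mod_cast this
  -- the case X = -1
  by_cases hX1 : X = -1
  · subst hX1
    have h1 : (6 * B2 + 36 * s) ^ 2 + 156 * s ^ 2 = 0 := by linear_combination I3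
    have hs : s = 0 := by
      by_contra hs
      have : 0 < s ^ 2 := by positivity
      nlinarith [sq_nonneg (6 * B2 + 36 * s)]
    rw [hs] at I4
    norm_num at I4
  -- the point on the elliptic curve
  have h1X : 1 + X ≠ 0 := fun h => hX1 (by linarith)
  set Y : ℚ := (2 * τ * X - 3 * X ^ 2 + 13 * X) / (1 + X) with hY
  have hY2 : Y ^ 2 = -X * (X + 4) * (4 * X - 9) := by
    rw [hY, div_pow, I2]
    field_simp
  have hE : (4 * Y) ^ 2 = (-4 * X) * (-4 * X - 16) * (-4 * X + 9) := by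
    linear_combination 16 * hY2
  have hXcases : X = -4 ∨ X = 9 / 4 ∨ X = -9 ∨ X = 1 := by
    rcases thmE (-4 * X) (4 * Y) hE with h | h | h
    · have hY0 : Y = 0 := by linarith
      rw [hY0] at hY2
      have : X * ((X + 4) * (4 * X - 9)) = 0 := by linear_combination hY2
      rcases mul_eq_zero.mp this with h | h
      · exact absurd h hX0
      · rcases mul_eq_zero.mp h with h | h
        · left; linarith
        · right; left; linarith
    · right; right; left; linarith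
    · right; right; right; linarith
  rcases hXcases with rfl | rfl | rfl | rfl
  · have h : (-8 * τ - 100) ^ 2 = 0 := by linear_combination I2
    have : -8 * τ - 100 = 0 := pow_eq_zero_iff (two_ne_zero) |>.mp h
    exact hτ252 (by linarith)
  · have h : (9 / 2 * τ + 225 / 16) ^ 2 = 0 := by linear_combination I2
    have : 9 / 2 * τ + 225 / 16 = 0 := pow_eq_zero_iff (two_ne_zero) |>.mp h
    exact hτ258 (by linarith)
  · have h : (-18 * τ) * (-18 * τ - 720) = 0 := by linear_combination I2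
    rcases mul_eq_zero.mp h with h | h
    · exact hτ (by linarith)
    · exact hτ40 (by linarith)
  · have h : (2 * τ) * (2 * τ + 20) = 0 := by linear_combination I2
    rcases mul_eq_zero.mp h with h | h
    · exact hτ (by linarith)
    · exact hτ10 (by linarith)

end Fermat.Agent.S51
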