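import Mathlib

/-!
# S51 support: counting points of a Weierstrass curve over the roots of a polynomial

If every nonzero point of a set `S` of points has its `x`-coordinate among the roots of a nonzero
polynomial `g`, then `S` is finite with at most `1 + 2 * deg g` elements.
-/

set_option autoImplicit false
set_option linter.unusedSectionVars false

namespace Fermat.Agent.S51

open Polynomial

variable {K : Type*} [Field K] [DecidableEq K] (V : WeierstrassCurve K)

/-- The quadratic polynomial in `Y` cutting out the points with given `x`-coordinate. -/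
noncomputable def yQuad (x : K) : K[X] :=
  X ^ 2 + (C (V.a₁ * x + V.a₃) * X - C (x ^ 3 + V.a₂ * x ^ 2 + V.a₄ * x + V.a₆))

theorem yQuad_monic (x : K) : (yQuad V x).Monic := by
  unfold yQuad
  apply monic_X_pow_add
  refine lt_of_le_of_lt (degree_sub_le _ _) ?_
  refine max_lt ?_ ?_
  · exact lt_of_le_of_lt (degree_C_mul_X_le _) (by norm_num)
  · exact lt_of_le_of_lt degree_C_le (by norm_num)

theorem yQuad_natDegree (x : K) : (yQuad V x).natDegree = 2 := by
  unfold yQuad
  have h1 : (C (V.a₁ * x + V.a₃) * X - C (x ^ 3 + V.a₂ * x ^ 2 + V.a₄ * x + V.a₆)).degree <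
      ((X : K[X]) ^ 2).degree := by
    rw [degree_X_pow]
    refine lt_of_le_of_lt (degree_sub_le _ _) ?_
    refine max_lt ?_ ?_
    · exact lt_of_le_of_lt (degree_C_mul_X_le _) (by norm_num)
    · exact lt_of_le_of_lt degree_C_le (by norm_num)
  rw [natDegree_add_eq_left_of_degree_lt h1, natDegree_X_pow]

theorem yQuad_isRoot_iff (x y : K) : (yQuad V x).IsRoot y ↔ V.toAffine.Equation x y := by
  rw [WeierstrassCurve.Affine.equation_iff, IsRoot.def]
  simp only [yQuad, eval_add, eval_sub, eval_pow, eval_X, eval_mul, eval_C]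
  constructor <;> intro h <;> linear_combination h

/-- The finite set of pairs `(x, y)` on the curve with `x` a root of `g`. -/
noncomputable def pairsOver (g : K[X]) : Finset (K × K) :=
  g.roots.toFinset.biUnion fun x => (yQuad V x).roots.toFinset.image fun y => (x, y)

theorem card_pairsOver_le (g : K[X]) : (pairsOver V g).card ≤ 2 * g.natDegree := by
  unfold pairsOver
  refine Finset.card_biUnion_le.trans ?_
  have h1 : ∀ x ∈ g.roots.toFinset,
      ((yQuad V x).roots.toFinset.image fun y => (x, y)).card ≤ 2 := by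
    intro x _
    refine Finset.card_image_le.trans ?_
    refine (Multiset.toFinset_card_le _).trans ?_
    exact (card_roots' _).trans (yQuad_natDegree V x).le
  refine (Finset.sum_le_sum h1).trans ?_
  rw [Finset.sum_const, smul_eq_mul, mul_comm]
  exact Nat.mul_le_mul_left 2 ((Multiset.toFinset_card_le _).trans (card_roots' _))

theorem mem_pairsOver {g : K[X]} (hg : g ≠ 0) {x y : K} (hx : g.IsRoot x)
    (hxy : V.toAffine.Equation x y) : (x, y) ∈ pairsOver V g := by
  unfold pairsOver
  rw [Finset.mem_biUnion]
  refine ⟨x, ?_, ?_⟩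
  · rw [Multiset.mem_toFinset, mem_roots hg]; exact hx
  · rw [Finset.mem_image]
    refine ⟨y, ?_, rfl⟩
    rw [Multiset.mem_toFinset, mem_roots (yQuad_monic V x).ne_zero]
    exact (yQuad_isRoot_iff V x y).mpr hxy

/-- The point attached to a pair (zero if the pair is not a nonsingular point). -/
noncomputable def pointOfPair (xy : K × K) : V.toAffine.Point := by
  classical
  exact if h : V.toAffine.Nonsingular xy.1 xy.2 then .some xy.1 xy.2 h else 0

/-- **Counting lemma.** -/
theorem finite_ncard_le_of_roots (g : K[X]) (hg : g ≠ 0) (S : Set V.toAffine.Point)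
    (h : ∀ P ∈ S, P = 0 ∨ ∃ x y hxy, P = .some x y hxy ∧ g.IsRoot x) :
    S.Finite ∧ S.ncard ≤ 1 + 2 * g.natDegree := by
  classical
  have hsub : S ⊆ insert 0 (pointOfPair V '' (pairsOver V g : Set (K × K))) := by
    intro P hP
    rcases h P hP with rfl | ⟨x, y, hxy, rfl, hx⟩
    · exact Set.mem_insert _ _
    · refine Set.mem_insert_of_mem _ ⟨(x, y), ?_, ?_⟩
      · exact Finset.mem_coe.mpr (mem_pairsOver V hg hx hxy.1)
      · simp only [pointOfPair, dif_pos hxy]
  have hfin : (insert 0 (pointOfPair V '' (pairsOver V g : Set (K × K)))).Finite :=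
    ((pairsOver V g).finite_toSet.image _).insert _
  refine ⟨hfin.subset hsub, (Set.ncard_le_ncard hsub hfin).trans ?_⟩
  refine (Set.ncard_insert_le _ _).trans ?_
  rw [add_comm]
  refine Nat.add_le_add_left ?_ 1
  refine (Set.ncard_image_le (pairsOver V g).finite_toSet).trans ?_
  rw [Set.ncard_coe_finset]
  exact card_pairsOver_le V g

/-- **Counting lemma for torsion subgroups.** -/
theorem card_torsionBy_le_of_roots (n : ℕ) (g : K[X]) (hg : g ≠ 0)
    (h : ∀ P : V.toAffine.Point, (n : ℤ) • P = 0 →
      P = 0 ∨ ∃ x y hxy, P = .some x y hxy ∧ g.IsRoot x) :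
    Finite (Submodule.torsionBy ℤ V.toAffine.Point (n : ℤ)) ∧
      Nat.card (Submodule.torsionBy ℤ V.toAffine.Point (n : ℤ)) ≤ 1 + 2 * g.natDegree := by
  have key := finite_ncard_le_of_roots V g hg
    (Submodule.torsionBy ℤ V.toAffine.Point (n : ℤ) : Set V.toAffine.Point)
    (fun P hP => h P ((Submodule.mem_torsionBy_iff _ _).mp hP))
  refine ⟨key.1.to_subtype, ?_⟩
  rw [← Nat.card_coe_set_eq] at key
  exact key.2

end Fermat.Agent.S51
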