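import Mathlib
import Fermat.Agent.S51.Dup
import Fermat.Agent.S51.CountPoints

/-!
# S51: `3`-torsion points

* (T1) `add_add_self_eq_zero_iff`: for `P ≠ 0` (and `Δ ≠ 0`): `3P = 0 ↔ psi3 (x P) = 0`.
* (T2) `exists_order_three`: over an algebraically closed field there is `P ≠ 0` with `3P = 0`.
* (T3) `card_torsionBy_three_le`: `#E[3] ≤ 9`.
-/

set_option autoImplicit false

namespace Fermat.Agent.S51

open WeierstrassCurve WeierstrassCurve.Affine Polynomial

/-- A nonzero point is of the form `some x y h` with `x = xCoord P`. -/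
theorem exists_some_of_ne_zero {K : Type*} [Field K] {E : WeierstrassCurve K}
    {P : E.toAffine.Point} (hP : P ≠ 0) :
    ∃ x y hxy, P = Point.some x y hxy ∧ x = xCoord P := by
  cases P with
  | zero => exact absurd rfl hP
  | some x y h => exact ⟨x, y, h, rfl, rfl⟩

section Three

variable {K : Type*} [Field K] [DecidableEq K] [CharZero K] {E : WeierstrassCurve K}

omit [CharZero K] in
/-- (T1, forward) a nonzero point with `3P = 0` has `psi3 (x P) = 0`. -/
theorem psi3_xCoord_of_add_add_self {P : E.toAffine.Point} (hP : P ≠ 0) (h3 : P + P + P = 0) :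
    psi3 E (xCoord P) = 0 := by
  have h2 : P + P = -P := eq_neg_of_add_eq_zero_left h3
  have h2ne : P + P ≠ 0 := by
    rw [h2]
    exact neg_ne_zero.mpr hP
  have hdup := xCoord_add_self hP h2ne
  rw [h2, xCoord_neg, phi2_eq] at hdup
  linear_combination hdup

/-- (T1, backward) a nonzero point with `psi3 (x P) = 0` on a curve with `Δ ≠ 0` has `3P = 0`. -/
theorem add_add_self_of_psi3_xCoord (hΔ : E.Δ ≠ 0) {P : E.toAffine.Point} (hP : P ≠ 0)
    (h : psi3 E (xCoord P) = 0) : P + P + P = 0 := by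
  have h2ne : P + P ≠ 0 := by
    intro h2
    exact hΔ (Δ_eq_zero_of_fTwo_psi3 E ((add_self_eq_zero_iff hP).mp h2) h)
  have hf := fTwo_xCoord_ne_zero hP h2ne
  have hdup := xCoord_add_self hP h2ne
  rw [phi2_eq, h, sub_zero] at hdup
  have hx : xCoord (P + P) = xCoord P := mul_right_cancel₀ hf hdup
  rcases (xCoord_eq_iff h2ne hP).mp hx with h2 | h2
  · exact absurd (by simpa using h2 : P = 0) hP
  · rw [h2]
    exact neg_add_cancel P

/-- (T1) for a nonzero point on a curve with `Δ ≠ 0`: `3P = 0 ↔ psi3 (x P) = 0`. -/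
theorem add_add_self_eq_zero_iff (hΔ : E.Δ ≠ 0) {P : E.toAffine.Point} (hP : P ≠ 0) :
    P + P + P = 0 ↔ psi3 E (xCoord P) = 0 :=
  ⟨psi3_xCoord_of_add_add_self hP, add_add_self_of_psi3_xCoord hΔ hP⟩

omit [DecidableEq K] in
theorem natDegree_Ψ₃ : E.Ψ₃.natDegree = 4 := by
  unfold WeierstrassCurve.Ψ₃
  compute_degree!

omit [DecidableEq K] in
theorem Ψ₃_ne_zero : E.Ψ₃ ≠ 0 := by
  intro h
  have := natDegree_Ψ₃ (E := E)
  rw [h] at this
  simp at this

omit [CharZero K] in
theorem three_zsmul (P : E.toAffine.Point) : ((3 : ℕ) : ℤ) • P = P + P + P := by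
  rw [natCast_zsmul]
  abel

omit [CharZero K] in
theorem mem_torsionBy_three_iff (P : E.toAffine.Point) :
    P ∈ Submodule.torsionBy ℤ E.toAffine.Point ((3 : ℕ) : ℤ) ↔ P + P + P = 0 := by
  rw [Submodule.mem_torsionBy_iff, three_zsmul]

/-- (T3) `E[3]` is finite with at most `9` elements. -/
theorem finite_and_card_torsionBy_three_le :
    Finite (Submodule.torsionBy ℤ E.toAffine.Point ((3 : ℕ) : ℤ)) ∧
      Nat.card (Submodule.torsionBy ℤ E.toAffine.Point ((3 : ℕ) : ℤ)) ≤ 9 := by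
  have := card_torsionBy_le_of_roots E 3 E.Ψ₃ (Ψ₃_ne_zero (E := E)) ?_
  · refine ⟨this.1, this.2.trans ?_⟩
    rw [natDegree_Ψ₃]
  · intro P hP
    by_cases hP0 : P = 0
    · exact Or.inl hP0
    · obtain ⟨x, y, hxy, rfl, hx⟩ := exists_some_of_ne_zero hP0
      refine Or.inr ⟨x, y, hxy, rfl, ?_⟩
      rw [IsRoot.def, eval_Ψ₃]
      rw [three_zsmul] at hP
      exact psi3_xCoord_of_add_add_self hP0 hP

theorem finite_torsionBy_three :
    Finite (Submodule.torsionBy ℤ E.toAffine.Point ((3 : ℕ) : ℤ)) :=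
  (finite_and_card_torsionBy_three_le (E := E)).1

theorem card_torsionBy_three_le :
    Nat.card (Submodule.torsionBy ℤ E.toAffine.Point ((3 : ℕ) : ℤ)) ≤ 9 :=
  (finite_and_card_torsionBy_three_le (E := E)).2

/-- (T2) over an algebraically closed field, a curve with `Δ ≠ 0` has a point of order `3`. -/
theorem exists_order_three [IsAlgClosed K] (hΔ : E.Δ ≠ 0) :
    ∃ P : E.toAffine.Point, P ≠ 0 ∧ P + P + P = 0 := by
  have hdeg : E.Ψ₃.degree ≠ 0 := by
    rw [degree_eq_natDegree Ψ₃_ne_zero, natDegree_Ψ₃]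
    norm_num
  obtain ⟨x, hx⟩ := IsAlgClosed.exists_root E.Ψ₃ hdeg
  have hdegy : (yQuad E x).degree ≠ 0 := by
    rw [degree_eq_natDegree (yQuad_monic E x).ne_zero, yQuad_natDegree]
    norm_num
  obtain ⟨y, hy⟩ := IsAlgClosed.exists_root (yQuad E x) hdegy
  have heq : E.toAffine.Equation x y := (yQuad_isRoot_iff E x y).mp hy
  have hns : E.toAffine.Nonsingular x y :=
    (Affine.equation_iff_nonsingular_of_Δ_ne_zero hΔ).mp heq
  refine ⟨Point.some x y hns, Point.some_ne_zero hns, ?_⟩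
  apply add_add_self_of_psi3_xCoord hΔ (Point.some_ne_zero hns)
  rw [xCoord_some, ← eval_Ψ₃]
  exact hx

theorem nontrivial_torsionBy_three [IsAlgClosed K] (hΔ : E.Δ ≠ 0) :
    Nontrivial (Submodule.torsionBy ℤ E.toAffine.Point ((3 : ℕ) : ℤ)) := by
  obtain ⟨P, hP, h3⟩ := exists_order_three hΔ
  refine ⟨⟨⟨P, (mem_torsionBy_three_iff P).mpr h3⟩, 0, ?_⟩⟩
  intro h
  exact hP (congrArg Subtype.val h)

end Three

end Fermat.Agent.S51
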