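import Mathlib

/-!
# S51, `Tors5`: pure algebra of the `5`-division polynomial

Scalar identities for `f = Ψ₂Sq`, `ψ₃`, `φ₂`, `preΨ₄`, `Ψ₅ = preΨ₄ f² - ψ₃³`.
-/

set_option autoImplicit false

namespace Fermat.Agent.S51

section Scalar

variable {K : Type*} [Field K]

/-- `f(x) = 4x³ + b₂x² + 2b₄x + b₆`. -/
def t5F (b2 b4 b6 x : K) : K := 4 * x ^ 3 + b2 * x ^ 2 + 2 * b4 * x + b6

/-- `ψ₃(x)`. -/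
def t5Psi3 (b2 b4 b6 b8 x : K) : K := 3 * x ^ 4 + b2 * x ^ 3 + 3 * b4 * x ^ 2 + 3 * b6 * x + b8

/-- `φ₂(x)`. -/
def t5Phi2 (b4 b6 b8 x : K) : K := x ^ 4 - b4 * x ^ 2 - 2 * b6 * x - b8

/-- `preΨ₄(x)`. -/
def t5Pre4 (b2 b4 b6 b8 x : K) : K :=
  2 * x ^ 6 + b2 * x ^ 5 + 5 * b4 * x ^ 4 + 10 * b6 * x ^ 3 + 10 * b8 * x ^ 2 +
    (b2 * b8 - b4 * b6) * x + (b4 * b8 - b6 ^ 2)

/-- `Ψ₅(x)`. -/
def t5Psi5 (b2 b4 b6 b8 x : K) : K :=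
  t5Pre4 b2 b4 b6 b8 x * t5F b2 b4 b6 x ^ 2 - t5Psi3 b2 b4 b6 b8 x ^ 3

/-- The discriminant in terms of the `b`-invariants. -/
def t5Disc (b2 b4 b6 b8 : K) : K := -b2 ^ 2 * b8 - 8 * b4 ^ 3 - 27 * b6 ^ 2 + 9 * b2 * b4 * b6

theorem t5_psi3_eq (b2 b4 b6 b8 x : K) :
    t5Psi3 b2 b4 b6 b8 x = x * t5F b2 b4 b6 x - t5Phi2 b4 b6 b8 x := by
  simp only [t5Psi3, t5F, t5Phi2]
  ring

/-- D5: `f(φ₂/f) f³ = preΨ₄²`, homogenised. -/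
theorem t5_dup_f [CharZero K] (b2 b4 b6 b8 x : K) (hb : 4 * b8 = b2 * b6 - b4 ^ 2) :
    4 * t5Phi2 b4 b6 b8 x ^ 3 + b2 * t5Phi2 b4 b6 b8 x ^ 2 * t5F b2 b4 b6 x +
      2 * b4 * t5Phi2 b4 b6 b8 x * t5F b2 b4 b6 x ^ 2 + b6 * t5F b2 b4 b6 x ^ 3 =
      t5Pre4 b2 b4 b6 b8 x ^ 2 := by
  obtain rfl : b8 = (b2 * b6 - b4 ^ 2) / 4 := by
    field_simp
    linear_combination hb
  simp only [t5Pre4, t5Phi2, t5F]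
  field_simp
  ring

/-- D6: `G = -ψ₃ Ψ₅`. -/
theorem t5_bigG [CharZero K] (b2 b4 b6 b8 x : K) (hb : 4 * b8 = b2 * b6 - b4 ^ 2) :
    t5Phi2 b4 b6 b8 x ^ 4 - b4 * t5Phi2 b4 b6 b8 x ^ 2 * t5F b2 b4 b6 x ^ 2 -
      2 * b6 * t5Phi2 b4 b6 b8 x * t5F b2 b4 b6 x ^ 3 - b8 * t5F b2 b4 b6 x ^ 4 -
      x * t5F b2 b4 b6 x * (4 * t5Phi2 b4 b6 b8 x ^ 3 + b2 * t5Phi2 b4 b6 b8 x ^ 2 * t5F b2 b4 b6 x +
        2 * b4 * t5Phi2 b4 b6 b8 x * t5F b2 b4 b6 x ^ 2 + b6 * t5F b2 b4 b6 x ^ 3) =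
      -t5Psi3 b2 b4 b6 b8 x * t5Psi5 b2 b4 b6 b8 x := by
  obtain rfl : b8 = (b2 * b6 - b4 ^ 2) / 4 := by
    field_simp
    linear_combination hb
  simp only [t5Psi5, t5Pre4, t5Phi2, t5Psi3, t5F]
  field_simp
  ring

/-- `144 Δ ∈ (f, φ₂)`. -/
theorem t5_disc_mem (b2 b4 b6 b8 x : K) (hb : 4 * b8 = b2 * b6 - b4 ^ 2) :
    144 * t5Disc b2 b4 b6 b8 =
      -48 * ((12 * x + b2) ^ 2 - 4 * (b2 ^ 2 - 24 * b4)) * t5Phi2 b4 b6 b8 x +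
      ((12 * x + b2) ^ 3 + 5 * (b2 ^ 2 - 24 * b4) * (12 * x + b2) +
        18 * (-b2 ^ 3 + 36 * b2 * b4 - 216 * b6) -
        4 * b2 * ((12 * x + b2) ^ 2 - 4 * (b2 ^ 2 - 24 * b4))) * t5F b2 b4 b6 x := by
  simp only [t5Disc, t5Phi2, t5F]
  linear_combination (36 * b2 ^ 2 - 48 * ((12 * x + b2) ^ 2 - 4 * (b2 ^ 2 - 24 * b4)) +
    (864 * b2 * x - 180 * b2 ^ 2 + 3456 * b4 + 5184 * x ^ 2)) * hb

/-- Homogenisation of `f` at `x₂ = p / f₁`. -/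
theorem t5_F_homog (b2 b4 b6 x2 f1 p : K) (h : x2 * f1 = p) :
    t5F b2 b4 b6 x2 * f1 ^ 3 = 4 * p ^ 3 + b2 * p ^ 2 * f1 + 2 * b4 * p * f1 ^ 2 + b6 * f1 ^ 3 := by
  subst h
  simp only [t5F]
  ring

/-- Homogenisation of `φ₂` at `x₂ = p / f₁`. -/
theorem t5_Phi2_homog (b4 b6 b8 x2 f1 p : K) (h : x2 * f1 = p) :
    t5Phi2 b4 b6 b8 x2 * f1 ^ 4 =
      p ^ 4 - b4 * p ^ 2 * f1 ^ 2 - 2 * b6 * p * f1 ^ 3 - b8 * f1 ^ 4 := by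
  subst h
  simp only [t5Phi2]
  ring

section Conseq

variable [CharZero K] {b2 b4 b6 b8 : K}

theorem t5_not_F_and_Phi2 (hb : 4 * b8 = b2 * b6 - b4 ^ 2) (hΔ : t5Disc b2 b4 b6 b8 ≠ 0) (x : K)
    (hf : t5F b2 b4 b6 x = 0) (hp : t5Phi2 b4 b6 b8 x = 0) : False := by
  have h := t5_disc_mem b2 b4 b6 b8 x hb
  rw [hf, hp, mul_zero, mul_zero, add_zero] at h
  exact hΔ (by simpa using h)

/-- The key relation: `f(x₁)⁴ (φ₂(x₂) - x₁ f(x₂)) = -ψ₃(x₁) Ψ₅(x₁)` when `x₂ f(x₁) = φ₂(x₁)`. -/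
theorem t5_key (hb : 4 * b8 = b2 * b6 - b4 ^ 2) (x1 x2 : K)
    (h12 : x2 * t5F b2 b4 b6 x1 = t5Phi2 b4 b6 b8 x1) :
    t5F b2 b4 b6 x1 ^ 4 * (t5Phi2 b4 b6 b8 x2 - x1 * t5F b2 b4 b6 x2) =
      -t5Psi3 b2 b4 b6 b8 x1 * t5Psi5 b2 b4 b6 b8 x1 := by
  rw [← t5_bigG b2 b4 b6 b8 x1 hb]
  have h1 := t5_F_homog b2 b4 b6 x2 _ _ h12
  have h2 := t5_Phi2_homog b4 b6 b8 x2 _ _ h12
  linear_combination h2 - x1 * t5F b2 b4 b6 x1 * h1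

/-- `f(x₂) f(x₁)³ = preΨ₄(x₁)²` when `x₂ f(x₁) = φ₂(x₁)`. -/
theorem t5_F_dup (hb : 4 * b8 = b2 * b6 - b4 ^ 2) (x1 x2 : K)
    (h12 : x2 * t5F b2 b4 b6 x1 = t5Phi2 b4 b6 b8 x1) :
    t5F b2 b4 b6 x2 * t5F b2 b4 b6 x1 ^ 3 = t5Pre4 b2 b4 b6 b8 x1 ^ 2 := by
  rw [← t5_dup_f b2 b4 b6 b8 x1 hb]
  exact t5_F_homog b2 b4 b6 x2 _ _ h12

theorem t5_F_ne_zero_of_Psi5 (hb : 4 * b8 = b2 * b6 - b4 ^ 2) (hΔ : t5Disc b2 b4 b6 b8 ≠ 0)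
    (x1 : K) (h5 : t5Psi5 b2 b4 b6 b8 x1 = 0) : t5F b2 b4 b6 x1 ≠ 0 := by
  intro hf
  have h := t5_bigG b2 b4 b6 b8 x1 hb
  rw [h5, hf] at h
  have hp : t5Phi2 b4 b6 b8 x1 = 0 := by
    have : t5Phi2 b4 b6 b8 x1 ^ 4 = 0 := by linear_combination h
    exact pow_eq_zero_iff (by norm_num) |>.mp this
  exact t5_not_F_and_Phi2 hb hΔ x1 hf hp

theorem t5_Psi3_ne_zero_of_Psi5 (hb : 4 * b8 = b2 * b6 - b4 ^ 2) (hΔ : t5Disc b2 b4 b6 b8 ≠ 0)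
    (x1 : K) (h5 : t5Psi5 b2 b4 b6 b8 x1 = 0) : t5Psi3 b2 b4 b6 b8 x1 ≠ 0 := by
  intro h3
  have hf := t5_F_ne_zero_of_Psi5 hb hΔ x1 h5
  -- `x₂ = x₁`
  have h12 : x1 * t5F b2 b4 b6 x1 = t5Phi2 b4 b6 b8 x1 := by
    have := t5_psi3_eq b2 b4 b6 b8 x1
    rw [h3] at this
    linear_combination -this
  -- `preΨ₄(x₁) = 0`
  have h4 : t5Pre4 b2 b4 b6 b8 x1 = 0 := by
    have h := h5
    rw [t5Psi5, h3] at h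
    have : t5Pre4 b2 b4 b6 b8 x1 * t5F b2 b4 b6 x1 ^ 2 = 0 := by linear_combination h
    rcases mul_eq_zero.mp this with h | h
    · exact h
    · exact absurd (pow_eq_zero_iff (by norm_num) |>.mp h) hf
  have hd := t5_F_dup hb x1 x1 h12
  rw [h4] at hd
  have : t5F b2 b4 b6 x1 ^ 4 = 0 := by linear_combination hd
  exact hf (pow_eq_zero_iff (by norm_num) |>.mp this)

/-- From a root `x₁` of `Ψ₅`: the "doubled" abscissa `x₂` satisfies the second relation. -/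
theorem t5_step_of_Psi5 (hb : 4 * b8 = b2 * b6 - b4 ^ 2) (hΔ : t5Disc b2 b4 b6 b8 ≠ 0)
    (x1 x2 : K) (h5 : t5Psi5 b2 b4 b6 b8 x1 = 0)
    (h12 : x2 * t5F b2 b4 b6 x1 = t5Phi2 b4 b6 b8 x1) :
    x1 * t5F b2 b4 b6 x2 = t5Phi2 b4 b6 b8 x2 ∧ t5F b2 b4 b6 x2 ≠ 0 ∧ x1 ≠ x2 := by
  have hf := t5_F_ne_zero_of_Psi5 hb hΔ x1 h5
  have hk := t5_key hb x1 x2 h12
  rw [h5, mul_zero] at hk
  have h21 : x1 * t5F b2 b4 b6 x2 = t5Phi2 b4 b6 b8 x2 := by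
    rcases mul_eq_zero.mp hk with h | h
    · exact absurd (pow_eq_zero_iff (by norm_num) |>.mp h) hf
    · linear_combination -h
  refine ⟨h21, ?_, ?_⟩
  · intro hf2
    rw [hf2, mul_zero] at h21
    exact t5_not_F_and_Phi2 hb hΔ x2 hf2 h21.symm
  · rintro rfl
    have h3 : t5Psi3 b2 b4 b6 b8 x1 = 0 := by
      rw [t5_psi3_eq]
      linear_combination h12
    exact t5_Psi3_ne_zero_of_Psi5 hb hΔ x1 h5 h3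

/-- Conversely, the structure relations of a point of order `5` force `Ψ₅(x₁) = 0`. -/
theorem t5_Psi5_of_relations (hb : 4 * b8 = b2 * b6 - b4 ^ 2) (x1 x2 : K)
    (hf1 : t5F b2 b4 b6 x1 ≠ 0) (h12 : x2 * t5F b2 b4 b6 x1 = t5Phi2 b4 b6 b8 x1)
    (h21 : x1 * t5F b2 b4 b6 x2 = t5Phi2 b4 b6 b8 x2) (hne : x1 ≠ x2) :
    t5Psi5 b2 b4 b6 b8 x1 = 0 := by
  have hk := t5_key hb x1 x2 h12
  rw [← h21, sub_self, mul_zero] at hk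
  have h3 : t5Psi3 b2 b4 b6 b8 x1 ≠ 0 := by
    rw [t5_psi3_eq, ← h12, ← sub_mul]
    exact mul_ne_zero (sub_ne_zero.mpr hne) hf1
  rcases mul_eq_zero.mp hk.symm with h | h
  · exact absurd (neg_eq_zero.mp h) h3
  · exact h

end Conseq

end Scalar

end Fermat.Agent.S51
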