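import Mathlib
import Fermat.Agent.S51.Tors5Alg
import Fermat.Agent.S51.CountPoints
import Fermat.Agent.S51.Dup

/-!
# S51, `Tors5`: points of order `5` on a Weierstrass curve

* `t5_structure`: the abscissas `x₁ = x(P)`, `x₂ = x(2P)` of a point of order `5` satisfy the
  duplication relations `x₂ f(x₁) = φ₂(x₁)`, `x₁ f(x₂) = φ₂(x₂)`, `f(x₁) ≠ 0 ≠ f(x₂)`, `x₁ ≠ x₂`.
* `t5_exists_order_five`: over an algebraically closed field of characteristic zero there is a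
  point of order `5`.
* `t5_isRoot_of_five_smul`: the abscissa of a nonzero `5`-torsion point is a root of `preΨ' 5`.
-/

set_option autoImplicit false

open WeierstrassCurve WeierstrassCurve.Affine Polynomial

namespace Fermat.Agent.S51

section Points

variable {K : Type*} [Field K] (V : WeierstrassCurve K)

/-- On the curve, `(2y + a₁x + a₃)² = f(x)`. -/
theorem t5_sq_eq_F {x y : K} (h : V.toAffine.Equation x y) :
    (2 * y + V.a₁ * x + V.a₃) ^ 2 = t5F V.b₂ V.b₄ V.b₆ x := by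
  rw [Affine.equation_iff] at h
  simp only [t5F, WeierstrassCurve.b₂, WeierstrassCurve.b₄, WeierstrassCurve.b₆]
  linear_combination 4 * h

theorem t5_Y_eq_negY_iff {x y : K} (h : V.toAffine.Equation x y) :
    y = V.toAffine.negY x y ↔ t5F V.b₂ V.b₄ V.b₆ x = 0 := by
  rw [← t5_sq_eq_F V h, sq_eq_zero_iff, Affine.negY]
  constructor
  · intro h1
    linear_combination h1
  · intro h1
    linear_combination h1

variable [DecidableEq K]

/-- D1: `2P = 0 ↔ f(x(P)) = 0`. -/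
theorem t5_two_smul_eq_zero_iff {x y : K} (h : V.toAffine.Nonsingular x y) :
    (2 : ℤ) • (Point.some x y h) = 0 ↔ t5F V.b₂ V.b₄ V.b₆ x = 0 := by
  rw [two_smul, ← t5_Y_eq_negY_iff V h.1]
  constructor
  · intro h0
    by_contra hy
    rw [Point.add_self_of_Y_ne hy] at h0
    exact Point.some_ne_zero _ h0
  · intro hy
    exact Point.add_self_of_Y_eq hy

/-- D2: if `f(x(P)) ≠ 0` then `x(2P) f(x(P)) = φ₂(x(P))`. -/
theorem t5_two_smul_of_F_ne_zero {x y : K} (h : V.toAffine.Nonsingular x y)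
    (hf : t5F V.b₂ V.b₄ V.b₆ x ≠ 0) :
    ∃ (x' y' : K) (h' : V.toAffine.Nonsingular x' y'),
      (2 : ℤ) • (Point.some x y h) = Point.some x' y' h' ∧
        x' * t5F V.b₂ V.b₄ V.b₆ x = t5Phi2 V.b₄ V.b₆ V.b₈ x := by
  have hy : y ≠ V.toAffine.negY x y := fun hy => hf ((t5_Y_eq_negY_iff V h.1).mp hy)
  refine ⟨_, _, _, by rw [two_smul]; exact Point.add_self_of_Y_ne hy, ?_⟩
  have hu : y - V.toAffine.negY x y ≠ 0 := sub_ne_zero.mpr hy
  have hu2 : (y - V.toAffine.negY x y) ^ 2 = t5F V.b₂ V.b₄ V.b₆ x := by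
    rw [← t5_sq_eq_F V h.1, Affine.negY]
    ring
  rw [Affine.slope_of_Y_ne rfl hy, ← hu2, Affine.addX]
  have heq := (Affine.equation_iff x y).mp h.1
  field_simp
  simp only [t5Phi2, Affine.negY, WeierstrassCurve.b₄, WeierstrassCurve.b₆, WeierstrassCurve.b₈]
  linear_combination (-(V.a₁ ^ 2 + 4 * V.a₂) - 8 * x) * heq

/-- T5c: the structure of a point of order `5`. -/
theorem t5_structure {P : V.toAffine.Point} (hP : P ≠ 0) (h5 : (5 : ℤ) • P = 0) :
    ∃ (x1 y1 : K) (h1 : V.toAffine.Nonsingular x1 y1) (x2 y2 : K)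
      (h2 : V.toAffine.Nonsingular x2 y2),
      P = Point.some x1 y1 h1 ∧ (2 : ℤ) • P = Point.some x2 y2 h2 ∧
      t5F V.b₂ V.b₄ V.b₆ x1 ≠ 0 ∧ t5F V.b₂ V.b₄ V.b₆ x2 ≠ 0 ∧
      x2 * t5F V.b₂ V.b₄ V.b₆ x1 = t5Phi2 V.b₄ V.b₆ V.b₈ x1 ∧
      x1 * t5F V.b₂ V.b₄ V.b₆ x2 = t5Phi2 V.b₄ V.b₆ V.b₈ x2 ∧ x1 ≠ x2 := by
  have h2ne : (2 : ℤ) • P ≠ 0 := by
    intro h2
    apply hP
    have : P = (5 : ℤ) • P - (2 : ℤ) • ((2 : ℤ) • P) := by
      rw [smul_smul, ← sub_smul]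
      norm_num
    rw [this, h5, h2, smul_zero, sub_zero]
  have h4ne : (2 : ℤ) • ((2 : ℤ) • P) ≠ 0 := by
    intro h4
    apply hP
    have : P = (5 : ℤ) • P - (2 : ℤ) • ((2 : ℤ) • P) := by
      rw [smul_smul, ← sub_smul]
      norm_num
    rw [this, h5, h4, sub_zero]
  have h4neg : (2 : ℤ) • ((2 : ℤ) • P) = -P := by
    have : (2 : ℤ) • ((2 : ℤ) • P) = (5 : ℤ) • P - P := by
      rw [smul_smul]
      nth_rewrite 3 [← one_smul ℤ P]
      rw [← sub_smul]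
      norm_num
    rw [this, h5, zero_sub]
  have h3ne : (3 : ℤ) • P ≠ 0 := by
    intro h3
    apply hP
    have : P = (2 : ℤ) • ((3 : ℤ) • P) - (5 : ℤ) • P := by
      rw [smul_smul, ← sub_smul]
      norm_num
    rw [this, h5, h3, smul_zero, sub_zero]
  rcases P with _ | ⟨x1, y1, h1⟩
  · exact absurd rfl hP
  have hf1 : t5F V.b₂ V.b₄ V.b₆ x1 ≠ 0 := fun hf =>
    h2ne ((t5_two_smul_eq_zero_iff V h1).mpr hf)
  obtain ⟨x2, y2, h2, e2, r12⟩ := t5_two_smul_of_F_ne_zero V h1 hf1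
  rw [e2] at h4ne h4neg
  have hf2 : t5F V.b₂ V.b₄ V.b₆ x2 ≠ 0 := fun hf =>
    h4ne ((t5_two_smul_eq_zero_iff V h2).mpr hf)
  obtain ⟨x4, y4, h4, e4, r24⟩ := t5_two_smul_of_F_ne_zero V h2 hf2
  rw [e4, Point.neg_some] at h4neg
  have hx4 : x4 = x1 := by
    injection h4neg
  rw [hx4] at r24
  refine ⟨x1, y1, h1, x2, y2, h2, rfl, e2, hf1, hf2, r12, r24, ?_⟩
  intro hx
  rcases (Point.X_eq_iff (h₁ := h1) (h₂ := h2)).mp hx with h | h
  · -- `P = 2P`, so `P = 0`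
    rw [← e2] at h
    have : Point.some x1 y1 h1 = 0 := by
      have h' : (2 : ℤ) • Point.some x1 y1 h1 - Point.some x1 y1 h1 = 0 := by
        rw [← h, sub_self]
      have e : (2 : ℤ) • Point.some x1 y1 h1 - Point.some x1 y1 h1 = Point.some x1 y1 h1 := by
        rw [two_smul, add_sub_cancel_right]
      rw [← e]
      exact h'
    exact hP this
  · -- `P = -2P`, so `3P = 0`
    rw [← e2] at h
    apply h3ne
    have e : (3 : ℤ) • Point.some x1 y1 h1 =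
        (2 : ℤ) • Point.some x1 y1 h1 + Point.some x1 y1 h1 := by
      nth_rewrite 3 [← one_smul ℤ (Point.some x1 y1 h1)]
      rw [← add_smul]
      norm_num
    rw [e]
    nth_rewrite 2 [h]
    rw [add_neg_cancel]

/-- The abscissa of a nonzero `5`-torsion point is a root of `Ψ₅`. -/
theorem t5_Psi5_eq_zero_of_five_smul [CharZero K] {P : V.toAffine.Point} (hP : P ≠ 0)
    (h5 : (5 : ℤ) • P = 0) :
    ∃ (x y : K) (h : V.toAffine.Nonsingular x y), P = Point.some x y h ∧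
      t5Psi5 V.b₂ V.b₄ V.b₆ V.b₈ x = 0 := by
  obtain ⟨x1, y1, h1, x2, y2, h2, e1, -, hf1, -, r12, r21, hne⟩ := t5_structure V hP h5
  exact ⟨x1, y1, h1, e1, t5_Psi5_of_relations V.b_relation x1 x2 hf1 r12 r21 hne⟩

end Points

section Poly

variable {K : Type*} [Field K] (V : WeierstrassCurve K)

theorem t5_preΨ'_five : V.preΨ' 5 = V.preΨ₄ * V.Ψ₂Sq ^ 2 - V.Ψ₃ ^ 3 := by
  have := V.preΨ'_odd 0
  simpa using this

theorem t5_eval_preΨ'_five (x : K) :
    (V.preΨ' 5).eval x = t5Psi5 V.b₂ V.b₄ V.b₆ V.b₈ x := by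
  rw [t5_preΨ'_five]
  simp [WeierstrassCurve.Ψ₂Sq, WeierstrassCurve.Ψ₃, WeierstrassCurve.preΨ₄, t5Psi5, t5Pre4, t5F,
    t5Psi3]

theorem t5_preΨ'_five_ne_zero [CharZero K] : V.preΨ' 5 ≠ 0 :=
  V.preΨ'_ne_zero (n := 5) (by norm_num)

theorem t5_natDegree_preΨ'_five [CharZero K] : (V.preΨ' 5).natDegree = 12 := by
  rw [V.natDegree_preΨ' (n := 5) (by norm_num)]
  norm_num

theorem t5_disc_eq : t5Disc V.b₂ V.b₄ V.b₆ V.b₈ = V.Δ := by
  simp only [t5Disc, WeierstrassCurve.Δ]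

end Poly

section Main

variable {K : Type*} [Field K] [DecidableEq K] (V : WeierstrassCurve K)

/-- T5b: `E[5]` is finite with at most `25` elements. -/
theorem t5_card_torsionBy_five_le [CharZero K] :
    Finite (Submodule.torsionBy ℤ V.toAffine.Point ((5 : ℕ) : ℤ)) ∧
      Nat.card (Submodule.torsionBy ℤ V.toAffine.Point ((5 : ℕ) : ℤ)) ≤ 25 := by
  have h := card_torsionBy_le_of_roots V 5 (V.preΨ' 5) (t5_preΨ'_five_ne_zero V) (by
    intro P h5
    by_cases hP : P = 0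
    · exact Or.inl hP
    · right
      obtain ⟨x, y, h, e, h0⟩ := t5_Psi5_eq_zero_of_five_smul V hP (by exact_mod_cast h5)
      exact ⟨x, y, h, e, by rw [Polynomial.IsRoot, t5_eval_preΨ'_five]; exact h0⟩)
  rw [t5_natDegree_preΨ'_five] at h
  exact h

/-- T5a: over an algebraically closed field of characteristic `0` there is a point of order `5`. -/
theorem t5_exists_order_five [IsAlgClosed K] [CharZero K] (hΔ : V.Δ ≠ 0) :
    ∃ P : V.toAffine.Point, P ≠ 0 ∧ (5 : ℤ) • P = 0 := by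
  have hb := V.b_relation
  have hΔ' : t5Disc V.b₂ V.b₄ V.b₆ V.b₈ ≠ 0 := by rwa [t5_disc_eq]
  -- a root of `Ψ₅`
  obtain ⟨x1, hx1⟩ := IsAlgClosed.exists_root (V.preΨ' 5) (by
    rw [Polynomial.degree_eq_natDegree (t5_preΨ'_five_ne_zero V), t5_natDegree_preΨ'_five]
    norm_num)
  rw [Polynomial.IsRoot, t5_eval_preΨ'_five] at hx1
  have hf1 := t5_F_ne_zero_of_Psi5 hb hΔ' x1 hx1
  -- a point above `x₁`
  obtain ⟨u, hu⟩ := IsAlgClosed.exists_pow_nat_eq (t5F V.b₂ V.b₄ V.b₆ x1) (n := 2) (by norm_num)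
  have heq : V.toAffine.Equation x1 ((u - V.a₁ * x1 - V.a₃) / 2) := by
    rw [Affine.equation_iff]
    simp only [t5F, WeierstrassCurve.b₂, WeierstrassCurve.b₄, WeierstrassCurve.b₆] at hu
    field_simp
    linear_combination hu
  have hns : V.toAffine.Nonsingular x1 ((u - V.a₁ * x1 - V.a₃) / 2) :=
    (Affine.equation_iff_nonsingular_of_Δ_ne_zero hΔ).mp heq
  set P : V.toAffine.Point := Point.some x1 _ hns with hP
  obtain ⟨x2, y2, h2, e2, r12⟩ := t5_two_smul_of_F_ne_zero V hns hf1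
  obtain ⟨r21, hf2, hne⟩ := t5_step_of_Psi5 hb hΔ' x1 x2 hx1 r12
  obtain ⟨x4, y4, h4, e4, r24⟩ := t5_two_smul_of_F_ne_zero V h2 hf2
  have hx4 : x4 = x1 := by
    have : x4 * t5F V.b₂ V.b₄ V.b₆ x2 = x1 * t5F V.b₂ V.b₄ V.b₆ x2 := by rw [r24, r21]
    exact mul_right_cancel₀ hf2 this
  refine ⟨P, Point.some_ne_zero _, ?_⟩
  rw [← hP] at e2
  rw [← e2] at e4
  -- `4P = ±P`
  have h4P : (2 : ℤ) • ((2 : ℤ) • P) = P ∨ (2 : ℤ) • ((2 : ℤ) • P) = -P := by
    rw [e4, hP]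
    exact (Point.X_eq_iff (h₁ := h4) (h₂ := hns)).mp hx4
  have e5 : (5 : ℤ) • P = (2 : ℤ) • ((2 : ℤ) • P) + P := by
    rw [smul_smul]
    nth_rewrite 3 [← one_smul ℤ P]
    rw [← add_smul]
    norm_num
  rcases h4P with h | h
  · -- `4P = P` forces `2P = -P`, i.e. `x₂ = x₁`
    exfalso
    apply hne
    have h3 : (2 : ℤ) • P = -P := by linear_combination (norm := module) h
    rw [e2, hP, Point.neg_some] at h3
    injection h3 with hx _
    exact hx.symm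
  · rw [e5, h, neg_add_cancel]

end Main

/-! ## Export in the vocabulary of `Dup.lean` (`fTwo`, `phi2`) -/

section Export

variable {K : Type*} [Field K] (V : WeierstrassCurve K)

theorem fTwo_eq_t5F (x : K) : fTwo V x = t5F V.b₂ V.b₄ V.b₆ x := rfl

theorem phi2_eq_t5Phi2 (x : K) : phi2 V x = t5Phi2 V.b₄ V.b₆ V.b₈ x := rfl

theorem Psi5_eq_t5Psi5 (x : K) : Psi5 V x = t5Psi5 V.b₂ V.b₄ V.b₆ V.b₈ x := rfl

variable [DecidableEq K]

/-- **T5c.** The structure of a point of order `5`. -/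
theorem tors5_structure {P : V.toAffine.Point} (hP : P ≠ 0) (h5 : (5 : ℤ) • P = 0) :
    ∃ (x1 y1 : K) (h1 : V.toAffine.Nonsingular x1 y1) (x2 y2 : K)
      (h2 : V.toAffine.Nonsingular x2 y2),
      P = Point.some x1 y1 h1 ∧ (2 : ℤ) • P = Point.some x2 y2 h2 ∧
      fTwo V x1 ≠ 0 ∧ fTwo V x2 ≠ 0 ∧ x2 * fTwo V x1 = phi2 V x1 ∧
      x1 * fTwo V x2 = phi2 V x2 ∧ x1 ≠ x2 :=
  t5_structure V hP h5

/-- **T5a.** Existence of a point of order `5`. -/
theorem tors5_exists [IsAlgClosed K] [CharZero K] (hΔ : V.Δ ≠ 0) :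
    ∃ P : V.toAffine.Point, P ≠ 0 ∧ (5 : ℤ) • P = 0 :=
  t5_exists_order_five V hΔ

/-- **T5a'.** `E[5]` is nontrivial. -/
theorem tors5_nontrivial [IsAlgClosed K] [CharZero K] (hΔ : V.Δ ≠ 0) :
    Nontrivial (Submodule.torsionBy ℤ V.toAffine.Point ((5 : ℕ) : ℤ)) := by
  obtain ⟨P, hP, h5⟩ := t5_exists_order_five V hΔ
  refine ⟨⟨⟨P, ?_⟩, 0, fun h => hP (congrArg Subtype.val h)⟩⟩
  rw [Submodule.mem_torsionBy_iff]
  exact_mod_cast h5

/-- **T5b.** `E[5]` is finite with at most `25` elements. -/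
theorem tors5_card_le [CharZero K] :
    Finite (Submodule.torsionBy ℤ V.toAffine.Point ((5 : ℕ) : ℤ)) ∧
      Nat.card (Submodule.torsionBy ℤ V.toAffine.Point ((5 : ℕ) : ℤ)) ≤ 25 :=
  t5_card_torsionBy_five_le V

/-- The abscissa of a nonzero `5`-torsion point is a root of `Psi5`. -/
theorem tors5_Psi5_eq_zero [CharZero K] {P : V.toAffine.Point} (hP : P ≠ 0)
    (h5 : (5 : ℤ) • P = 0) :
    ∃ (x y : K) (h : V.toAffine.Nonsingular x y), P = Point.some x y h ∧ Psi5 V x = 0 :=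
  t5_Psi5_eq_zero_of_five_smul V hP h5

end Export

end Fermat.Agent.S51
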