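import Mathlib
import Fermat.Agent.S51.DescentDefs

/-!
# S51: the descent on `y² = x (x - 1) (x - 81)` and the rational points of
`Y² = X (X - 16) (X + 9)`

Given the classification step (`Classified`), every rational point of `y² = x (x-1) (x-81)` has
`y = 0` (infinite descent on the naive height, halving a suitable translate of the point), and
hence, via a `2`-isogeny, the rational points of `Y² = X (X-16) (X+9)` have `Y = 0` or
`X ∈ {36, -4}`.
-/

set_option autoImplicit false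

namespace Fermat.Agent.S51

/-! ## The naive height -/

/-- The naive height of a rational number. -/
def ht (x : ℚ) : ℕ := max x.num.natAbs x.den

theorem ht_div_le (a b : ℤ) (hb : b ≠ 0) : ht ((a : ℚ) / (b : ℚ)) ≤ max a.natAbs b.natAbs := by
  rw [← Rat.divInt_eq_div]
  have h1 : (Rat.divInt a b).num ∣ a := Rat.num_dvd a hb
  have h2 : ((Rat.divInt a b).den : ℤ) ∣ b := Rat.den_dvd a b
  have h3 : (Rat.divInt a b).den ≤ b.natAbs := by
    have := Int.natAbs_dvd_natAbs.mpr h2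
    rw [Int.natAbs_natCast] at this
    exact Nat.le_of_dvd (Int.natAbs_pos.mpr hb) this
  by_cases ha : a = 0
  · subst ha
    simp only [Rat.zero_divInt, ht]
    simp only [Rat.num_zero, Int.natAbs_zero, Rat.den_zero]
    have : 1 ≤ b.natAbs := Int.natAbs_pos.mpr hb
    omega
  · have h4 : (Rat.divInt a b).num.natAbs ≤ a.natAbs :=
      Nat.le_of_dvd (Int.natAbs_pos.mpr ha) (Int.natAbs_dvd_natAbs.mpr h1)
    unfold ht
    omega

theorem ht_sq_div_sq (u e : ℤ) (hu : 0 < u) (he : 0 < e) (h : Int.gcd u e = 1) :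
    (ht ((u : ℚ) ^ 2 / (e : ℚ) ^ 2) : ℤ) = max (u ^ 2) (e ^ 2) := by
  have hcop : Nat.Coprime (u ^ 2).natAbs (e ^ 2).natAbs := by
    rw [Int.natAbs_pow, Int.natAbs_pow]
    exact Nat.Coprime.pow 2 2 h
  have he2 : (0 : ℤ) < e ^ 2 := by positivity
  have hnum := Rat.num_div_eq_of_coprime he2 hcop
  have hden := Rat.den_div_eq_of_coprime he2 hcop
  have hx : ((u : ℚ) ^ 2 / (e : ℚ) ^ 2) = ((u ^ 2 : ℤ) : ℚ) / ((e ^ 2 : ℤ) : ℚ) := by
    push_cast; rfl
  rw [hx]
  unfold ht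
  rw [hnum]
  have hu2 : (0 : ℤ) ≤ u ^ 2 := by positivity
  rw [Nat.cast_max, Int.natAbs_of_nonneg hu2, hden]

/-! ## The halving step -/

/-- If `x'`, `x' - 1`, `x' - 81` are the squares of `r1`, `r2`, `r3`, then
`((r1 + r2) (r1 + r3), (r1 + r2) (r1 + r3) (r2 + r3))` is a rational point with nonzero
ordinate. -/
theorem halving (r1 r2 r3 : ℚ) (h2 : r2 ^ 2 = r1 ^ 2 - 1) (h3 : r3 ^ 2 = r1 ^ 2 - 81) :
    ((r1 + r2) * (r1 + r3) * (r2 + r3)) ^ 2 =
        ((r1 + r2) * (r1 + r3)) * ((r1 + r2) * (r1 + r3) - 1) * ((r1 + r2) * (r1 + r3) - 81) ∧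
      (r1 + r2) * (r1 + r3) * (r2 + r3) ≠ 0 := by
  constructor
  · have e1 : (r1 + r2) * (r1 + r3) - 1 = (r2 + r1) * (r2 + r3) := by linear_combination -h2
    have e2 : (r1 + r2) * (r1 + r3) - 81 = (r3 + r1) * (r3 + r2) := by linear_combination -h3
    rw [e1, e2]; ring
  · have n1 : r1 + r2 ≠ 0 := by
      intro h
      have : r2 = -r1 := by linear_combination h
      rw [this] at h2
      norm_num at h2
      linarith
    have n2 : r1 + r3 ≠ 0 := by
      intro h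
      have : r3 = -r1 := by linear_combination h
      rw [this] at h3
      norm_num at h3
      linarith
    have n3 : r2 + r3 ≠ 0 := by
      intro h
      have : r3 = -r2 := by linear_combination h
      rw [this] at h3
      have : r2 ^ 2 = r1 ^ 2 - 81 := by linear_combination h3
      linarith
    exact mul_ne_zero (mul_ne_zero n1 n2) n3

/-! ## Finite checks -/

/-- Finite check for the case `δ = -1`. -/
def chkNegOne (e : ℕ) : Prop :=
  ∀ u < e, ∀ v < e, (0 < u ∧ 0 < v ∧ e ^ 2 = u ^ 2 + v ^ 2) →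
    ∀ w < 162, 81 * e ^ 2 ≠ u ^ 2 + w ^ 2

instance instDecidableChkNegOne (e : ℕ) : Decidable (chkNegOne e) := by
  unfold chkNegOne; infer_instance

theorem chkNegOne_of_lt : ∀ e < 18, chkNegOne e := by
  decide +kernel

/-- Finite check for the case `δ = -5`. -/
def chkNegFive (e : ℕ) : Prop :=
  ∀ u < e, ∀ v < e, (0 < u ∧ 0 < v ∧ e ^ 2 = u ^ 2 + 5 * v ^ 2) →
    ∀ w < 81, 81 * e ^ 2 ≠ u ^ 2 + 5 * w ^ 2

instance instDecidableChkNegFive (e : ℕ) : Decidable (chkNegFive e) := by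
  unfold chkNegFive; infer_instance

theorem chkNegFive_of_lt : ∀ e < 9, chkNegFive e := by
  decide +kernel

/-! ## The descent step -/

theorem ht_div_lt_of_pos (a b M : ℤ) (ha : 0 < a) (hb : 0 < b) (h1 : a < M) (h2 : b < M) :
    (ht ((a : ℚ) / (b : ℚ)) : ℤ) < M := by
  have h := ht_div_le a b hb.ne'
  have h' : (ht ((a : ℚ) / (b : ℚ)) : ℤ) ≤ max (a.natAbs : ℤ) (b.natAbs : ℤ) := by
    exact_mod_cast h
  rw [Int.natAbs_of_nonneg ha.le, Int.natAbs_of_nonneg hb.le] at h'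
  exact lt_of_le_of_lt h' (max_lt h1 h2)

theorem lt_of_sq_lt_sq' {a b : ℤ} (hb : 0 ≤ b) (h : a ^ 2 < b ^ 2) : a < b := by
  by_contra hcon
  push Not at hcon
  have : b ^ 2 ≤ a ^ 2 := pow_le_pow_left₀ hb hcon 2
  linarith

/-- From a classified point one gets a point of smaller height. -/
theorem exists_smaller (x : ℚ) (hx : Classified x) :
    ∃ xQ yQ : ℚ, yQ ^ 2 = xQ * (xQ - 1) * (xQ - 81) ∧ yQ ≠ 0 ∧ ht xQ < ht x := by
  obtain ⟨u, e, v, w, δ, hu, he, hv, hw, hgcd, rfl, hδ, h1, h2⟩ := hx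
  have hH := ht_sq_div_sq u e hu he hgcd
  have huQ : (u : ℚ) ≠ 0 := by exact_mod_cast hu.ne'
  have heQ : (e : ℚ) ≠ 0 := by exact_mod_cast he.ne'
  have hvQ : (v : ℚ) ≠ 0 := by exact_mod_cast hv.ne'
  have hwQ : (w : ℚ) ≠ 0 := by exact_mod_cast hw.ne'
  rcases hδ with rfl | rfl | rfl | rfl
  · -- δ = 1
    have h1Q : (u : ℚ) ^ 2 - (e : ℚ) ^ 2 = (v : ℚ) ^ 2 := by exact_mod_cast (by linarith : u ^ 2 - e ^ 2 = v ^ 2)
    have h2Q : (u : ℚ) ^ 2 - 81 * (e : ℚ) ^ 2 = (w : ℚ) ^ 2 := by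
      exact_mod_cast (by linarith : u ^ 2 - 81 * e ^ 2 = w ^ 2)
    obtain ⟨hc, hne⟩ := halving ((u : ℚ) / e) (-(v : ℚ) / e) ((w : ℚ) / e)
      (by field_simp; linear_combination -h1Q) (by field_simp; linear_combination -h2Q)
    have huv : ((u + v : ℤ) : ℚ) ≠ 0 := by
      have : 0 < u + v := by linarith
      exact_mod_cast this.ne'
    have hxQ : ((u : ℚ) / e + -(v : ℚ) / e) * ((u : ℚ) / e + (w : ℚ) / e)
        = ((u + w : ℤ) : ℚ) / ((u + v : ℤ) : ℚ) := by
      push_cast at huv ⊢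
      rw [← add_div, ← add_div, div_mul_div_comm,
        div_eq_div_iff (mul_ne_zero heQ heQ) huv]
      linear_combination ((u : ℚ) + w) * h1Q
    refine ⟨_, _, hc, hne, ?_⟩
    rw [hxQ]
    have hvu : v < u := lt_of_sq_lt_sq' hu.le (by nlinarith)
    have hwu : w < u := lt_of_sq_lt_sq' hu.le (by nlinarith)
    have hu10 : 10 ≤ u := by
      by_contra hcon
      push Not at hcon
      have : u ≤ 9 := by linarith
      nlinarith
    have hlt : (ht (((u + w : ℤ) : ℚ) / ((u + v : ℤ) : ℚ)) : ℤ) < u ^ 2 :=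
      ht_div_lt_of_pos _ _ _ (by linarith) (by linarith) (by nlinarith) (by nlinarith)
    have : (ht (((u + w : ℤ) : ℚ) / ((u + v : ℤ) : ℚ)) : ℤ) < (ht ((u : ℚ) ^ 2 / (e : ℚ) ^ 2) : ℤ) := by
      rw [hH]; exact lt_of_lt_of_le hlt (le_max_left _ _)
    exact_mod_cast this
  · -- δ = -1
    have h1Q : (e : ℚ) ^ 2 - (u : ℚ) ^ 2 = (v : ℚ) ^ 2 := by
      exact_mod_cast (by linarith : e ^ 2 - u ^ 2 = v ^ 2)
    have h2Q : 81 * (e : ℚ) ^ 2 - (u : ℚ) ^ 2 = (w : ℚ) ^ 2 := by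
      exact_mod_cast (by linarith : 81 * e ^ 2 - u ^ 2 = w ^ 2)
    obtain ⟨hc, hne⟩ := halving (9 * (e : ℚ) / u) (-(w : ℚ) / u) (9 * (v : ℚ) / u)
      (by field_simp; linear_combination -h2Q) (by field_simp; linear_combination -81 * h1Q)
    have hd : ((9 * e + w : ℤ) : ℚ) ≠ 0 := by
      have : 0 < 9 * e + w := by linarith
      exact_mod_cast this.ne'
    have hxQ : (9 * (e : ℚ) / u + -(w : ℚ) / u) * (9 * (e : ℚ) / u + 9 * (v : ℚ) / u)
        = ((9 * (e + v) : ℤ) : ℚ) / ((9 * e + w : ℤ) : ℚ) := by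
      push_cast at hd ⊢
      rw [← add_div, ← add_div, div_mul_div_comm,
        div_eq_div_iff (mul_ne_zero huQ huQ) hd]
      linear_combination (9 * ((e : ℚ) + v)) * h2Q
    refine ⟨_, _, hc, hne, ?_⟩
    rw [hxQ]
    have hve : v < e := lt_of_sq_lt_sq' he.le (by nlinarith)
    have hue : u < e := lt_of_sq_lt_sq' he.le (by nlinarith)
    have hw9e : w < 9 * e := lt_of_sq_lt_sq' (by linarith) (by nlinarith)
    by_cases he18 : 18 ≤ e
    · have hlt : (ht (((9 * (e + v) : ℤ) : ℚ) / ((9 * e + w : ℤ) : ℚ)) : ℤ) < e ^ 2 :=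
        ht_div_lt_of_pos _ _ _ (by linarith) (by linarith) (by nlinarith) (by nlinarith)
      have : (ht (((9 * (e + v) : ℤ) : ℚ) / ((9 * e + w : ℤ) : ℚ)) : ℤ)
          < (ht ((u : ℚ) ^ 2 / (e : ℚ) ^ 2) : ℤ) := by
        rw [hH]; exact lt_of_lt_of_le hlt (le_max_right _ _)
      exact_mod_cast this
    · exfalso
      push Not at he18
      lift e to ℕ using he.le
      lift u to ℕ using hu.le
      lift v to ℕ using hv.le
      lift w to ℕ using hw.le
      have e1 : e ^ 2 = u ^ 2 + v ^ 2 := by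
        have : ((e ^ 2 : ℕ) : ℤ) = ((u ^ 2 + v ^ 2 : ℕ) : ℤ) := by push_cast; linarith
        exact_mod_cast this
      have e2 : 81 * e ^ 2 = u ^ 2 + w ^ 2 := by
        have : ((81 * e ^ 2 : ℕ) : ℤ) = ((u ^ 2 + w ^ 2 : ℕ) : ℤ) := by push_cast; linarith
        exact_mod_cast this
      have he18' : e < 18 := by exact_mod_cast he18
      have hue' : u < e := by exact_mod_cast hue
      have hve' : v < e := by exact_mod_cast hve
      have hw' : w < 162 := by
        have : w < 9 * e := by exact_mod_cast hw9e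
        omega
      exact chkNegOne_of_lt e he18' u hue' v hve'
        ⟨by exact_mod_cast hu, by exact_mod_cast hv, e1⟩ w hw' e2
  · -- δ = 5
    have h1Q : (u : ℚ) ^ 2 - (e : ℚ) ^ 2 = 5 * (v : ℚ) ^ 2 := by exact_mod_cast h1
    have h2Q : (u : ℚ) ^ 2 - 81 * (e : ℚ) ^ 2 = 5 * (w : ℚ) ^ 2 := by exact_mod_cast h2
    obtain ⟨hc, hne⟩ := halving (9 * (v : ℚ) / w) (-(4 * (u : ℚ)) / w) (36 * (e : ℚ) / w)
      (by field_simp; linear_combination (81 / 5 : ℚ) * h1Q - (1 / 5 : ℚ) * h2Q)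
      (by field_simp; linear_combination (81 / 5 : ℚ) * h1Q - (81 / 5 : ℚ) * h2Q)
    have hd : ((9 * v + 4 * u : ℤ) : ℚ) ≠ 0 := by
      have : 0 < 9 * v + 4 * u := by linarith
      exact_mod_cast this.ne'
    have hxQ : (9 * (v : ℚ) / w + -(4 * (u : ℚ)) / w) * (9 * (v : ℚ) / w + 36 * (e : ℚ) / w)
        = ((9 * v + 36 * e : ℤ) : ℚ) / ((9 * v + 4 * u : ℤ) : ℚ) := by
      push_cast at hd ⊢
      rw [← add_div, ← add_div, div_mul_div_comm,
        div_eq_div_iff (mul_ne_zero hwQ hwQ) hd]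
      linear_combination (9 * (v : ℚ) + 36 * e) * ((1 / 5 : ℚ) * h2Q - (81 / 5 : ℚ) * h1Q)
    refine ⟨_, _, hc, hne, ?_⟩
    rw [hxQ]
    have h2vu : 2 * v < u := lt_of_sq_lt_sq' hu.le (by nlinarith)
    have h9eu : 9 * e < u := lt_of_sq_lt_sq' hu.le (by nlinarith)
    have hu10 : 10 ≤ u := by linarith
    have hlt : (ht (((9 * v + 36 * e : ℤ) : ℚ) / ((9 * v + 4 * u : ℤ) : ℚ)) : ℤ) < u ^ 2 :=
      ht_div_lt_of_pos _ _ _ (by linarith) (by linarith) (by nlinarith) (by nlinarith)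
    have : (ht (((9 * v + 36 * e : ℤ) : ℚ) / ((9 * v + 4 * u : ℤ) : ℚ)) : ℤ)
        < (ht ((u : ℚ) ^ 2 / (e : ℚ) ^ 2) : ℤ) := by
      rw [hH]; exact lt_of_lt_of_le hlt (le_max_left _ _)
    exact_mod_cast this
  · -- δ = -5
    have h1Q : (e : ℚ) ^ 2 - (u : ℚ) ^ 2 = 5 * (v : ℚ) ^ 2 := by
      exact_mod_cast (by linarith : e ^ 2 - u ^ 2 = 5 * v ^ 2)
    have h2Q : 81 * (e : ℚ) ^ 2 - (u : ℚ) ^ 2 = 5 * (w : ℚ) ^ 2 := by
      exact_mod_cast (by linarith : 81 * e ^ 2 - u ^ 2 = 5 * w ^ 2)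
    obtain ⟨hc, hne⟩ := halving ((w : ℚ) / v) (-(4 * (e : ℚ)) / v) (4 * (u : ℚ) / v)
      (by field_simp; linear_combination (1 / 5 : ℚ) * h2Q - (1 / 5 : ℚ) * h1Q)
      (by field_simp; linear_combination (1 / 5 : ℚ) * h2Q - (81 / 5 : ℚ) * h1Q)
    have hd : ((w + 4 * e : ℤ) : ℚ) ≠ 0 := by
      have : 0 < w + 4 * e := by linarith
      exact_mod_cast this.ne'
    have hxQ : ((w : ℚ) / v + -(4 * (e : ℚ)) / v) * ((w : ℚ) / v + 4 * (u : ℚ) / v)
        = ((w + 4 * u : ℤ) : ℚ) / ((w + 4 * e : ℤ) : ℚ) := by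
      push_cast at hd ⊢
      rw [← add_div, ← add_div, div_mul_div_comm,
        div_eq_div_iff (mul_ne_zero hvQ hvQ) hd]
      linear_combination ((w : ℚ) + 4 * u) * ((1 / 5 : ℚ) * h1Q - (1 / 5 : ℚ) * h2Q)
    refine ⟨_, _, hc, hne, ?_⟩
    rw [hxQ]
    have hue : u < e := lt_of_sq_lt_sq' he.le (by nlinarith)
    have hve : v < e := lt_of_sq_lt_sq' he.le (by nlinarith)
    have hw5e : w < 5 * e := lt_of_sq_lt_sq' (by linarith) (by nlinarith)
    by_cases he9 : 9 ≤ e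
    · have hlt : (ht (((w + 4 * u : ℤ) : ℚ) / ((w + 4 * e : ℤ) : ℚ)) : ℤ) < e ^ 2 :=
        ht_div_lt_of_pos _ _ _ (by linarith) (by linarith) (by nlinarith) (by nlinarith)
      have : (ht (((w + 4 * u : ℤ) : ℚ) / ((w + 4 * e : ℤ) : ℚ)) : ℤ)
          < (ht ((u : ℚ) ^ 2 / (e : ℚ) ^ 2) : ℤ) := by
        rw [hH]; exact lt_of_lt_of_le hlt (le_max_right _ _)
      exact_mod_cast this
    · exfalso
      push Not at he9
      lift e to ℕ using he.le
      lift u to ℕ using hu.le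
      lift v to ℕ using hv.le
      lift w to ℕ using hw.le
      have e1 : e ^ 2 = u ^ 2 + 5 * v ^ 2 := by
        have : ((e ^ 2 : ℕ) : ℤ) = ((u ^ 2 + 5 * v ^ 2 : ℕ) : ℤ) := by push_cast; linarith
        exact_mod_cast this
      have e2 : 81 * e ^ 2 = u ^ 2 + 5 * w ^ 2 := by
        have : ((81 * e ^ 2 : ℕ) : ℤ) = ((u ^ 2 + 5 * w ^ 2 : ℕ) : ℤ) := by push_cast; linarith
        exact_mod_cast this
      have he9' : e < 9 := by exact_mod_cast he9
      have hue' : u < e := by exact_mod_cast hue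
      have hve' : v < e := by exact_mod_cast hve
      have hw' : w < 81 := by
        have : w < 5 * e := by exact_mod_cast hw5e
        omega
      exact chkNegFive_of_lt e he9' u hue' v hve'
        ⟨by exact_mod_cast hu, by exact_mod_cast hv, e1⟩ w hw' e2

/-! ## Theorem L and Theorem E -/

/-- **Theorem L** (given the classification step): the rational points of
`y² = x (x - 1) (x - 81)` have `y = 0`. -/
theorem theoremL_of_classified
    (hcl : ∀ x y : ℚ, y ^ 2 = x * (x - 1) * (x - 81) → y ≠ 0 → Classified x)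
    (x y : ℚ) (h : y ^ 2 = x * (x - 1) * (x - 81)) : y = 0 := by
  by_contra hy
  have key : ∀ n : ℕ, ∀ x y : ℚ, y ^ 2 = x * (x - 1) * (x - 81) → y ≠ 0 → ht x = n → False := by
    intro n
    induction n using Nat.strong_induction_on with
    | _ n ih =>
      intro x y h hy hn
      obtain ⟨xQ, yQ, hQ, hyQ, hlt⟩ := exists_smaller x (hcl x y h hy)
      exact ih (ht xQ) (hn ▸ hlt) xQ yQ hQ hyQ rfl
  exact key _ x y h hy rfl

/-- **Theorem E** from Theorem L via a `2`-isogeny: the rational points of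
`Y² = X (X - 16) (X + 9)` have `Y = 0` or `X ∈ {36, -4}`. -/
theorem theoremE_of_L (hL : ∀ x y : ℚ, y ^ 2 = x * (x - 1) * (x - 81) → y = 0)
    (X Y : ℚ) (h : Y ^ 2 = X * (X - 16) * (X + 9)) : Y = 0 ∨ X = 36 ∨ X = -4 := by
  by_cases hY : Y = 0
  · exact Or.inl hY
  right
  have hu : X - 16 ≠ 0 := by
    intro h0
    apply hY
    have : Y ^ 2 = 0 := by rw [h, h0]; ring
    exact pow_eq_zero_iff (two_ne_zero) |>.mp this
  have key := hL (X * (X + 9) / (X - 16)) (Y * ((X - 16) ^ 2 - 400) / (X - 16) ^ 2) (by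
    field_simp
    linear_combination ((X - 16) ^ 2 - 400) ^ 2 * h)
  have h2 : Y * ((X - 16) ^ 2 - 400) = 0 := by
    have h3 : (X - 16) ^ 2 ≠ 0 := pow_ne_zero 2 hu
    field_simp at key
    simpa using key
  have h4 : (X - 16) ^ 2 - 400 = 0 := (mul_eq_zero.mp h2).resolve_left hY
  have h5 : (X - 36) * (X + 4) = 0 := by linear_combination h4
  rcases mul_eq_zero.mp h5 with h6 | h6
  · left; linarith
  · right; linarith

end Fermat.Agent.S51
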